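import Fermat.Agent.S37.Red.Val
import Fermat.Agent.S28.IntVal

/-!
# S44 / Bridge / Centre : the centre of a place on a ring (abstract part).

`Ω` algebraically closed, all of whose nonzero elements are roots of unity (`𝔽̄_p`), `𝕃 / Ω` a function field, `v : Place Ω 𝕃`,
`χ : O →+* 𝕃` a ring hom all of whose values are regular at `v`.

* `centre χ v hreg : Ideal O` := `{x | χ x vanishes at v}`; it is a MAXIMAL ideal containing `ker χ`;
* `ord_eq_zero_of_notMem` : `x ∉ centre ⟹ v.ord (χ x) = 0`;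
* `reg_of_isIntegral` : regularity of `χ` on an integral extension.
-/

set_option autoImplicit false
set_option linter.unusedSectionVars false

namespace Fermat.Agent.S44.Bridge

open AlgebraicCurve Fermat.Agent.S26 Fermat.Agent.S37.Red

noncomputable section

variable {O : Type*} [CommRing O] {Ω 𝕃 : Type*} [Field Ω] [Field 𝕃] [Algebra Ω 𝕃]

/-- regularity passes to integral extensions. -/
theorem reg_of_isIntegralElem {R : Type*} [CommRing R] (v : Place Ω 𝕃) (f : R →+* 𝕃)
    (hf : ∀ c, Reg v (f c)) {x : 𝕃} (hx : f.IsIntegralElem x) : Reg v x :=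
  Fermat.Agent.S28.IntVal.mem_of_isIntegralElem v.toValuationSubring f hf hx

/-- regularity of `χ` from regularity on a subring over which `O` is integral. -/
theorem reg_of_isIntegral {R : Type*} [CommRing R] [Algebra R O] [Algebra.IsIntegral R O]
    (χ : O →+* 𝕃) (v : Place Ω 𝕃) (h : ∀ c : R, Reg v (χ (algebraMap R O c))) (x : O) :
    Reg v (χ x) := by
  refine reg_of_isIntegralElem v (χ.comp (algebraMap R O)) h ?_
  obtain ⟨P, hP, h0⟩ := Algebra.IsIntegral.isIntegral (R := R) x
  refine ⟨P, hP, ?_⟩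
  rw [← Polynomial.hom_eval₂, h0, map_zero]

variable [IsAlgClosed Ω] [FF1 Ω 𝕃]

/-- evaluation at a place. -/
def evPlace (χ : O →+* 𝕃) (v : Place Ω 𝕃) (hreg : ∀ x, Reg v (χ x)) : O →+* Ω where
  toFun x := val v (χ x)
  map_one' := by rw [map_one, val_one]
  map_mul' x y := by rw [map_mul, val_mul v (hreg x) (hreg y)]
  map_zero' := by rw [map_zero, val_zero]
  map_add' x y := by rw [map_add, val_add v (hreg x) (hreg y)]

/-- the centre of `v` on `O`. -/
def centre (χ : O →+* 𝕃) (v : Place Ω 𝕃) (hreg : ∀ x, Reg v (χ x)) : Ideal O :=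
  RingHom.ker (evPlace χ v hreg)

variable {χ : O →+* 𝕃} {v : Place Ω 𝕃} {hreg : ∀ x, Reg v (χ x)}

theorem mem_centre {x : O} : x ∈ centre χ v hreg ↔ Van v (χ x) := by
  rw [centre, RingHom.mem_ker]
  exact val_eq_zero_iff v (hreg x)

theorem ker_le_centre : RingHom.ker χ ≤ centre χ v hreg := by
  intro x hx
  rw [mem_centre, (RingHom.mem_ker).1 hx]
  exact van_zero v

theorem ord_eq_zero_of_notMem {x : O} (hx : x ∉ centre χ v hreg) : v.ord (χ x) = 0 :=
  ord_eq_zero_of_reg_of_not_van v (hreg x) fun h => hx (mem_centre.2 h)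

theorem ne_zero_of_notMem {x : O} (hx : x ∉ centre χ v hreg) : χ x ≠ 0 := fun h =>
  hx (ker_le_centre ((RingHom.mem_ker).2 h))

theorem centre_isMaximal (htors : ∀ c : Ω, c ≠ 0 → ∃ N : ℕ, 0 < N ∧ c ^ N = 1) :
    (centre χ v hreg).IsMaximal := by
  rw [Ideal.isMaximal_iff]
  refine ⟨fun h => ?_, fun J x hJ hx hxJ => ?_⟩
  · rw [centre, RingHom.mem_ker, map_one] at h
    exact one_ne_zero h
  · obtain ⟨N, hN, h1⟩ := htors (evPlace χ v hreg x) hx
    have h2 : x ^ N - 1 ∈ centre χ v hreg := by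
      rw [centre, RingHom.mem_ker, map_sub, map_pow, h1, map_one, sub_self]
    have h3 : (1 : O) = x ^ N - (x ^ N - 1) := by ring
    rw [h3]
    exact sub_mem (Ideal.pow_mem_of_mem _ hxJ _ hN) (hJ h2)

end

end Fermat.Agent.S44.Bridge
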