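import Fermat.Agent.S44.Loc.At2
import Fermat.Agent.S24.FF.PlaceBasic

/-!
# S44 / Bridge / Place : (RC) and LocSmooth, evaluated at a place of the residue function field.

`O` a noetherian domain, `F = Frac O`, `χ : O →+* 𝕃` a ring hom to a field (the reduction on the first component), `Q1 = ker χ`.

* `Rd χ ϖ j u a` : "`u / ϖ ^ j` reduces to `a ∈ 𝕃`"  (`∃ s o, χ s ≠ 0, s u = ϖ^j o, a χ s = χ o`); calculus `mul`, `inv`, `pow`, `zpow`, `unique`;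
* `vEq_iff_rd`   : `VEq (ker χ) ϖ j u ↔ ∃ a ≠ 0, Rd χ ϖ j u a`;
* `rc_red`, `smooth_red` : `rcAt'`, `locSmoothAt'` pushed through `χ` :  `χ s * (η ^ m * (a ^ T * χ X ^ (A' - B'))) = χ t`, `s t ∉ n`;
* `rc_val`, `smooth_val`, `exists_maximal_of_val` : the same for a valuation ring `V ⊇ χ(O)` of `𝕃` (`UnitV V z := z ∈ V ∧ z⁻¹ ∈ V`);
* `rc_place`     : at a node `n` which is the centre of the place `v` :  `m ∣ T * ord_v a + (A' - B') * ord_v (χ X)`;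
* `smooth_place` : at a smooth point `n` which is the centre of `v` :  `m ∣ ord_v a`.
-/

set_option autoImplicit false
set_option linter.unusedSectionVars false

namespace Fermat.Agent.S44.Bridge

open AlgebraicCurve Fermat.Agent.S44.Loc

variable {O F 𝕃 : Type*} [CommRing O] [IsDomain O] [Field F] [Algebra O F] [IsFractionRing O F]
  [Field 𝕃]

/-- `u / ϖ ^ j` reduces to `a`. -/
def Rd (χ : O →+* 𝕃) (ϖ : O) (j : ℤ) (u : F) (a : 𝕃) : Prop :=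
  ∃ s o : O, χ s ≠ 0 ∧ algebraMap O F s * u = algebraMap O F ϖ ^ j * algebraMap O F o ∧
    a * χ s = χ o

variable {χ : O →+* 𝕃} {ϖ : O} {j j' : ℤ} {u u' : F} {a a' : 𝕃}

theorem Rd.of_mem (x : O) : Rd χ ϖ 0 (algebraMap O F x) (χ x) :=
  ⟨1, x, by rw [map_one]; exact one_ne_zero, by simp, by simp⟩

theorem Rd.one : Rd χ ϖ 0 (1 : F) 1 := by
  have := Rd.of_mem (F := F) (χ := χ) (ϖ := ϖ) 1
  rwa [map_one, map_one] at this

theorem Rd.pi_zpow (j : ℤ) : Rd χ ϖ j (algebraMap O F ϖ ^ j : F) 1 :=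
  ⟨1, 1, by rw [map_one]; exact one_ne_zero, by simp, by simp⟩

theorem Rd.mul (hϖ : ϖ ≠ 0) (h : Rd χ ϖ j u a) (h' : Rd χ ϖ j' u' a') :
    Rd χ ϖ (j + j') (u * u') (a * a') := by
  obtain ⟨s, o, hs, e, ha⟩ := h
  obtain ⟨s', o', hs', e', ha'⟩ := h'
  have h0 : algebraMap O F ϖ ≠ 0 := (map_ne_zero_iff _ (IsFractionRing.injective O F)).2 hϖ
  refine ⟨s * s', o * o', by rw [map_mul]; exact mul_ne_zero hs hs', ?_, ?_⟩
  · have : algebraMap O F (s * s') * (u * u')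
        = (algebraMap O F s * u) * (algebraMap O F s' * u') := by rw [map_mul]; ring
    rw [this, e, e', zpow_add₀ h0, map_mul]
    ring
  · rw [map_mul, map_mul, ← ha, ← ha']
    ring

theorem Rd.inv (hϖ : ϖ ≠ 0) (h : Rd χ ϖ j u a) (ha : a ≠ 0) : Rd χ ϖ (-j) u⁻¹ a⁻¹ := by
  obtain ⟨s, o, hs, e, ha'⟩ := h
  have h0 : algebraMap O F ϖ ≠ 0 := (map_ne_zero_iff _ (IsFractionRing.injective O F)).2 hϖ
  have ho : χ o ≠ 0 := by rw [← ha']; exact mul_ne_zero ha hs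
  have hs0 : algebraMap O F s ≠ 0 := by
    intro h
    rw [map_eq_zero_iff _ (IsFractionRing.injective O F)] at h
    exact hs (by rw [h, map_zero])
  have ho0 : algebraMap O F o ≠ 0 := by
    intro h
    rw [map_eq_zero_iff _ (IsFractionRing.injective O F)] at h
    exact ho (by rw [h, map_zero])
  have hu : u ≠ 0 := by
    rintro rfl
    rw [mul_zero] at e
    exact mul_ne_zero (zpow_ne_zero _ h0) ho0 e.symm
  refine ⟨o, s, ho, ?_, ?_⟩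
  · rw [zpow_neg]
    have hz := zpow_ne_zero j h0
    field_simp
    rw [mul_comm u, e, mul_comm]
  · rw [← ha']
    field_simp

theorem Rd.pow (hϖ : ϖ ≠ 0) (h : Rd χ ϖ j u a) (n : ℕ) : Rd χ ϖ (n * j) (u ^ n) (a ^ n) := by
  induction n with
  | zero => simpa using Rd.one (F := F) (χ := χ) (ϖ := ϖ)
  | succ n ih =>
    have h1 := ih.mul hϖ h
    rw [← pow_succ, ← pow_succ] at h1
    have h2 : ((n + 1 : ℕ) : ℤ) * j = n * j + j := by push_cast; ring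
    rw [h2]
    exact h1

theorem Rd.zpow (hϖ : ϖ ≠ 0) (h : Rd χ ϖ j u a) (ha : a ≠ 0) (n : ℤ) :
    Rd χ ϖ (n * j) (u ^ n) (a ^ n) := by
  obtain ⟨n, rfl | rfl⟩ := n.eq_nat_or_neg
  · rw [zpow_natCast, zpow_natCast]
    exact h.pow hϖ n
  · rw [zpow_neg, zpow_neg, zpow_natCast, zpow_natCast, neg_mul]
    exact (h.pow hϖ n).inv hϖ (pow_ne_zero _ ha)

theorem Rd.unique (hϖ : ϖ ≠ 0) (h : Rd χ ϖ j u a) (h' : Rd χ ϖ j u a') : a = a' := by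
  obtain ⟨s, o, hs, e, ha⟩ := h
  obtain ⟨s', o', hs', e', ha'⟩ := h'
  have h0 : algebraMap O F ϖ ≠ 0 := (map_ne_zero_iff _ (IsFractionRing.injective O F)).2 hϖ
  have h1 : algebraMap O F (s' * o) = algebraMap O F (s * o') := by
    apply mul_left_cancel₀ (zpow_ne_zero j h0)
    rw [map_mul, map_mul]
    calc algebraMap O F ϖ ^ j * (algebraMap O F s' * algebraMap O F o)
        = algebraMap O F s' * (algebraMap O F ϖ ^ j * algebraMap O F o) := by ring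
      _ = algebraMap O F s * (algebraMap O F ϖ ^ j * algebraMap O F o') := by
          rw [← e, ← e']; ring
      _ = _ := by ring
  have h2 := congrArg χ (IsFractionRing.injective O F h1)
  rw [map_mul, map_mul, ← ha, ← ha'] at h2
  have h3 : a * (χ s * χ s') = a' * (χ s * χ s') := by linear_combination h2
  exact mul_right_cancel₀ (mul_ne_zero hs hs') h3

theorem Rd.congr (h : Rd χ ϖ j u a) (hj : j = j') (hu : u = u') (ha : a = a') :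
    Rd χ ϖ j' u' a' := by
  subst hj hu ha; exact h

theorem vEq_iff_rd : VEq (RingHom.ker χ) ϖ j u ↔ ∃ a, a ≠ 0 ∧ Rd χ ϖ j u a := by
  constructor
  · rintro ⟨s, o, hs, ho, e⟩
    exact ⟨χ o / χ s, div_ne_zero ho hs, s, o, hs, e, div_mul_cancel₀ _ hs⟩
  · rintro ⟨a, ha, s, o, hs, e, h⟩
    exact ⟨s, o, hs, fun h0 => by
      rw [RingHom.mem_ker] at h0
      rw [h0] at h
      exact mul_ne_zero ha hs h, e⟩

theorem Rd.vEq (h : Rd χ ϖ j u a) (ha : a ≠ 0) : VEq (RingHom.ker χ) ϖ j u :=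
  vEq_iff_rd.2 ⟨a, ha, h⟩

/-! ### `InRAt`, `InvKAt` and powers of `ϖ` -/

theorem inRAt_mul_pi_zpow {n : Ideal O} (hϖ : ϖ ≠ 0) {z : F} (h : InRAt n ϖ z) (i : ℤ) :
    InRAt n ϖ (z * algebraMap O F ϖ ^ i) := by
  obtain ⟨s, e, o, hs, he⟩ := h
  have h0 : algebraMap O F ϖ ≠ 0 := (map_ne_zero_iff _ (IsFractionRing.injective O F)).2 hϖ
  obtain ⟨i, rfl | rfl⟩ := i.eq_nat_or_neg
  · refine ⟨s, e, o * ϖ ^ i, hs, ?_⟩
    rw [zpow_natCast, map_mul, map_pow, ← he]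
    ring
  · refine ⟨s, e + i, o, hs, ?_⟩
    rw [zpow_neg, zpow_natCast, ← he, pow_add]
    have := pow_ne_zero i h0
    field_simp

theorem invKAt_mul_pi_zpow {n : Ideal O} (hϖ : ϖ ≠ 0) {m : ℕ} {W : F} (h : InvKAt n ϖ m W)
    (i : ℤ) : InvKAt n ϖ m (W * algebraMap O F ϖ ^ i) := by
  obtain ⟨r, a, b, ha, hb, hsum⟩ := h
  refine ⟨r, a, b, fun t => ?_, fun t => ?_, hsum⟩
  · rw [← mul_assoc]
    exact inRAt_mul_pi_zpow hϖ (ha t) i
  · rw [mul_inv, ← zpow_neg, ← mul_assoc]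
    exact inRAt_mul_pi_zpow hϖ (hb t) (-i)

/-! ### the two local statements, reduced via `χ` -/

section Red

variable [IsNoetherianRing O] {n Q2 : Ideal O} {m T : ℕ} {X : O} {A' B' : ℤ}

/-- **(RC), reduced.** -/
theorem rc_red (h : NodeAt n ϖ (RingHom.ker χ) Q2) (hn : NormalAt F n ϖ) (hm : 0 < m)
    (hX : XDataAt F n ϖ (RingHom.ker χ) Q2 X T) (hmT : Nat.Coprime m T)
    (hu1 : Rd χ ϖ A' u a) (ha : a ≠ 0) (hu2 : VEq Q2 ϖ B' u) (hinv : InvKAt n ϖ m u) :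
    ∃ (η : 𝕃) (s t : O), η ≠ 0 ∧ s ∉ n ∧ t ∉ n ∧
      χ s * (η ^ m * (a ^ T * χ X ^ (A' - B'))) = χ t := by
  have hϖ : ϖ ≠ 0 := h.ne_zero
  obtain ⟨y, s, t, hy1, -, hs, ht, e⟩ := rcAt' h hn hm hX hmT (hu1.vEq ha) hu2 hinv
  obtain ⟨η, hη, hyη⟩ := vEq_iff_rd.1 hy1
  have hX0 : χ X ≠ 0 := hX.notMem1
  have r1 := (Rd.of_mem (F := F) (χ := χ) (ϖ := ϖ) s).mul hϖ ((hyη.pow hϖ m).mul hϖ
    (((hu1.pow hϖ T).mul hϖ ((Rd.of_mem (F := F) (χ := χ) (ϖ := ϖ) X).zpow hϖ hX0 (A' - B'))).mul hϖ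
      (Rd.pi_zpow (F := F) (χ := χ) (ϖ := ϖ) (-(T * A')))))
  rw [e] at r1
  have r2 := (r1.congr (j' := 0) (by ring) rfl rfl).unique hϖ (Rd.of_mem t)
  rw [mul_one] at r2
  exact ⟨η, s, t, hη, hs, ht, r2⟩

/-- **LocSmooth, reduced.** -/
theorem smooth_red (h : SmoothAt n ϖ (RingHom.ker χ)) (hn : NormalAt F n ϖ) (hm : 0 < m)
    (hu1 : Rd χ ϖ A' u a) (ha : a ≠ 0) (hinv : InvKAt n ϖ m u) :
    ∃ (η : 𝕃) (s t : O), η ≠ 0 ∧ s ∉ n ∧ t ∉ n ∧ χ s * (η ^ m * a) = χ t := by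
  have hϖ : ϖ ≠ 0 := h.ne_zero
  have r0 : Rd χ ϖ 0 (u * algebraMap O F ϖ ^ (-A')) a :=
    (hu1.mul hϖ (Rd.pi_zpow (F := F) (χ := χ) (ϖ := ϖ) (-A'))).congr (by ring) rfl (mul_one a)
  obtain ⟨y, s, t, hy1, hs, ht, e⟩ := locSmoothAt' h hn hm (r0.vEq ha) (invKAt_mul_pi_zpow hϖ hinv (-A'))
  obtain ⟨η, hη, hyη⟩ := vEq_iff_rd.1 hy1
  have r1 := (Rd.of_mem (F := F) (χ := χ) (ϖ := ϖ) s).mul hϖ ((hyη.pow hϖ m).mul hϖ r0)
  rw [e] at r1
  have r2 := (r1.congr (j' := 0) (by ring) rfl rfl).unique hϖ (Rd.of_mem t)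
  exact ⟨η, s, t, hη, hs, ht, r2⟩

/-! ### valuation ring form -/

/-- `z` is a unit of the valuation ring `V`. -/
def UnitV (V : ValuationSubring 𝕃) (z : 𝕃) : Prop := z ∈ V ∧ z⁻¹ ∈ V

theorem UnitV.of_mul_eq {V : ValuationSubring 𝕃} {b z c : 𝕃} (hb : UnitV V b) (hc : UnitV V c)
    (hb0 : b ≠ 0) (e : b * z = c) : UnitV V z := by
  have hz : z = b⁻¹ * c := by rw [← e, inv_mul_cancel_left₀ hb0]
  refine ⟨by rw [hz]; exact V.mul_mem _ _ hb.2 hc.1, ?_⟩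
  rw [hz, mul_inv, inv_inv]
  exact V.mul_mem _ _ hb.1 hc.2

/-- (RC) at a valuation ring `V` of `𝕃` whose centre is contained in `n`. -/
theorem rc_val (V : ValuationSubring 𝕃) (hcent : ∀ x, x ∉ n → UnitV V (χ x))
    (h : NodeAt n ϖ (RingHom.ker χ) Q2) (hn : NormalAt F n ϖ) (hm : 0 < m)
    (hX : XDataAt F n ϖ (RingHom.ker χ) Q2 X T) (hmT : Nat.Coprime m T)
    (hu1 : Rd χ ϖ A' u a) (ha : a ≠ 0) (hu2 : VEq Q2 ϖ B' u) (hinv : InvKAt n ϖ m u) :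
    ∃ η : 𝕃, η ≠ 0 ∧ UnitV V (η ^ m * (a ^ T * χ X ^ (A' - B'))) := by
  obtain ⟨η, s, t, hη, hs, ht, e⟩ := rc_red h hn hm hX hmT hu1 ha hu2 hinv
  have hs0 : χ s ≠ 0 := fun h0 => hs (h.le1 h0)
  exact ⟨η, hη, (hcent s hs).of_mul_eq (hcent t ht) hs0 e⟩

/-- LocSmooth at a valuation ring `V` of `𝕃` whose centre is contained in `n`. -/
theorem smooth_val (V : ValuationSubring 𝕃) (hcent : ∀ x, x ∉ n → UnitV V (χ x))
    (h : SmoothAt n ϖ (RingHom.ker χ)) (hn : NormalAt F n ϖ) (hm : 0 < m)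
    (hu1 : Rd χ ϖ A' u a) (ha : a ≠ 0) (hinv : InvKAt n ϖ m u) :
    ∃ η : 𝕃, η ≠ 0 ∧ UnitV V (η ^ m * a) := by
  obtain ⟨η, s, t, hη, hs, ht, e⟩ := smooth_red h hn hm hu1 ha hinv
  have hs0 : χ s ≠ 0 := fun h0 => hs (h.le h0)
  exact ⟨η, hη, (hcent s hs).of_mul_eq (hcent t ht) hs0 e⟩

/-- a maximal ideal above the centre of `V`. -/
theorem exists_maximal_of_val (V : ValuationSubring 𝕃) (hV : ∀ x, χ x ∈ V) :
    ∃ n : Ideal O, n.IsMaximal ∧ RingHom.ker χ ≤ n ∧ (∀ x, x ∉ n → UnitV V (χ x)) ∧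
      ∀ x, (χ x)⁻¹ ∉ V → x ∈ n := by
  let χV : O →+* V := χ.codRestrict V.toSubring hV
  let 𝔭 : Ideal O := (IsLocalRing.maximalIdeal V).comap χV
  have h𝔭 : 𝔭 ≠ ⊤ := (Ideal.comap_isPrime χV (IsLocalRing.maximalIdeal V)).ne_top
  obtain ⟨n, hn, hle⟩ := Ideal.exists_le_maximal 𝔭 h𝔭
  have key : ∀ x, x ∉ 𝔭 → UnitV V (χ x) := by
    intro x hx
    refine ⟨hV x, ?_⟩
    have h1 : IsUnit (χV x) := by
      by_contra h2
      exact hx ((IsLocalRing.mem_maximalIdeal _).2 h2)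
    obtain ⟨w, hw⟩ := h1
    have h3 : χ x * ((w⁻¹ : Vˣ) : V) = 1 := by
      have h4 : ((w : V) : 𝕃) = χ x := by rw [hw]; rfl
      rw [← h4]
      exact_mod_cast congrArg Subtype.val w.mul_inv
    rw [inv_eq_of_mul_eq_one_right h3]
    exact Subtype.property _
  refine ⟨n, hn, fun x hx => hle ?_, fun x hx => key x fun h => hx (hle h), fun x hx => ?_⟩
  · change χV x ∈ IsLocalRing.maximalIdeal V
    have : χV x = 0 := Subtype.ext hx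
    rw [this]
    exact zero_mem _
  · by_contra hxn
    exact hx (key x fun h => hxn (hle h)).2

end Red

/-! ### place form -/

variable {Ω : Type*} [Field Ω] [Algebra Ω 𝕃] [IsNoetherianRing O]
  {n Q2 : Ideal O} {m T : ℕ} {X : O} {A' B' : ℤ}

/-- **(RC) at a place.** -/
theorem rc_place (v : Place Ω 𝕃) (hcent : ∀ x, x ∉ n → v.ord (χ x) = 0)
    (h : NodeAt n ϖ (RingHom.ker χ) Q2) (hn : NormalAt F n ϖ) (hm : 0 < m)
    (hX : XDataAt F n ϖ (RingHom.ker χ) Q2 X T) (hmT : Nat.Coprime m T)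
    (hu1 : Rd χ ϖ A' u a) (ha : a ≠ 0) (hu2 : VEq Q2 ϖ B' u) (hinv : InvKAt n ϖ m u) :
    (m : ℤ) ∣ T * v.ord a + (A' - B') * v.ord (χ X) := by
  obtain ⟨η, s, t, hη, hs, ht, e⟩ := rc_red h hn hm hX hmT hu1 ha hu2 hinv
  have hs0 : χ s ≠ 0 := fun h0 => hs (h.le1 h0)
  have hX0 : χ X ≠ 0 := hX.notMem1
  have h1 := congrArg v.ord e
  have n1 : η ^ m ≠ 0 := pow_ne_zero _ hη
  have n2 : a ^ T ≠ 0 := pow_ne_zero _ ha
  have n3 : χ X ^ (A' - B') ≠ 0 := zpow_ne_zero _ hX0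
  rw [v.ord_mul hs0 (mul_ne_zero n1 (mul_ne_zero n2 n3)),
    v.ord_mul n1 (mul_ne_zero n2 n3), v.ord_mul n2 n3, hcent s hs, hcent t ht,
    Fermat.Agent.S24.FF.ord_pow, Fermat.Agent.S24.FF.ord_pow, v.ord_zpow] at h1
  exact ⟨-v.ord η, by linear_combination h1⟩

/-- **LocSmooth at a place.** -/
theorem smooth_place (v : Place Ω 𝕃) (hcent : ∀ x, x ∉ n → v.ord (χ x) = 0)
    (h : SmoothAt n ϖ (RingHom.ker χ)) (hn : NormalAt F n ϖ) (hm : 0 < m)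
    (hu1 : Rd χ ϖ A' u a) (ha : a ≠ 0) (hinv : InvKAt n ϖ m u) : (m : ℤ) ∣ v.ord a := by
  obtain ⟨η, s, t, hη, hs, ht, e⟩ := smooth_red h hn hm hu1 ha hinv
  have hs0 : χ s ≠ 0 := fun h0 => hs (h.le h0)
  have h1 := congrArg v.ord e
  have n1 : η ^ m ≠ 0 := pow_ne_zero _ hη
  rw [v.ord_mul hs0 (mul_ne_zero n1 ha), v.ord_mul n1 ha, hcent s hs, hcent t ht,
    Fermat.Agent.S24.FF.ord_pow] at h1
  exact ⟨-v.ord η, by linear_combination h1⟩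

end Fermat.Agent.S44.Bridge
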