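import Fermat.Agent.S44.Loc.Val
import Fermat.Agent.SS.GM2.RedK

/-!
# S44 / Bridge / RedDict : `VGe` / `VEq` at the kernel of a reduction map  ⟺  Gauss valuation of `q`-expansions (`RedK`).

Abstract setting, usable for the chart ring `SM A F` and for the cover ring `S' = SM[z]`:
`O` a domain, `F = Frac O`, `Ψ : F → K((q))` (the `q`-expansion), `ρ : O → k((q))` a ring hom with `RedK r (Ψ x) (ρ x)` for all `x : O`,
`ϖ : O` with `Ψ ϖ = π` (constant series), `r π = 0`.   `P := ker ρ`.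

* `RedData.of_vGe`, `RedData.of_vEq` : `v_P(z) ≥ j` (`= j`) ⟹ `Ψ z * π ^ (-j)` has the reduction `ρ o / ρ s` (`≠ 0`);
* `RedData.vGe_of`, `RedData.vEq_of` : the converse (`O` noetherian, `LocPrin P ϖ`).
-/

set_option autoImplicit false
set_option linter.unusedSectionVars false

namespace Fermat.Agent.S44.Bridge

open Fermat.Agent.S44.Loc Fermat.Agent.SS.GM2

variable {A K k : Type*} [CommRing A] [IsDomain A] [Field K] [Algebra A K] [IsFractionRing A K]
  [Field k] {r : A →+* k} {π : A}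
variable {O F : Type*} [CommRing O] [IsDomain O] [Field F] [Algebra O F] [IsFractionRing O F]
  {Ψ : F →+* LaurentSeries K} {ρ : O →+* LaurentSeries k} {ϖ : O}

/-- a reduction map on a subring `O` of `F`, compatible with the Gauss valuation of `K((q))`. -/
structure RedData (r : A →+* k) (π : A) (Ψ : F →+* LaurentSeries K) (ρ : O →+* LaurentSeries k)
    (ϖ : O) : Prop where
  red : ∀ x : O, RedK r (Ψ (algebraMap O F x)) (ρ x)
  pi : Ψ (algebraMap O F ϖ) = HahnSeries.C (algebraMap A K π)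
  rpi : r π = 0
  ne : π ≠ 0

namespace RedData

variable (D : RedData r π Ψ ρ ϖ) {j : ℤ} {z : F} {a : LaurentSeries k}

include D

theorem C_ne_zero : (HahnSeries.C (algebraMap A K π) : LaurentSeries K) ≠ 0 := by
  rw [Ne, map_eq_zero_iff _ HahnSeries.C_injective]
  exact (map_ne_zero_iff _ (IsFractionRing.injective A K)).2 D.ne

theorem redK_pow {n : ℕ} (hn : n ≠ 0) :
    RedK r ((HahnSeries.C (algebraMap A K π) : LaurentSeries K) ^ n) 0 := by
  have h := (RedK.of_C (K := K) (r := r) π).pow n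
  rwa [D.rpi, map_zero, zero_pow hn] at h

theorem Psi_ne_zero {s : O} (hs : ρ s ≠ 0) : Ψ (algebraMap O F s) ≠ 0 := by
  intro h
  rw [map_eq_zero, map_eq_zero_iff _ (IsFractionRing.injective O F)] at h
  exact hs (by rw [h, map_zero])

theorem eq_div {s o : O} (hs : ρ s ≠ 0)
    (e : algebraMap O F s * z = algebraMap O F ϖ ^ j * algebraMap O F o) :
    Ψ z * (HahnSeries.C (algebraMap A K π) : LaurentSeries K) ^ (-j)
      = Ψ (algebraMap O F o) / Ψ (algebraMap O F s) := by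
  have h1 := congrArg Ψ e
  rw [map_mul, map_mul, map_zpow₀, D.pi] at h1
  have h2 := D.Psi_ne_zero hs
  have h3 := zpow_ne_zero j D.C_ne_zero
  rw [eq_div_iff h2, zpow_neg, mul_assoc, mul_comm _ (Ψ (algebraMap O F s)), ← mul_assoc,
    mul_comm (Ψ z), h1, mul_comm _ (Ψ (algebraMap O F o)), mul_assoc, mul_inv_cancel₀ h3, mul_one]

/-- `v_P(z) ≥ j` ⟹ `Ψ z / π ^ j` is Gauss-integral, with reduction in `Frac (ρ O)`. -/
theorem of_vGe (h : VGe (RingHom.ker ρ) ϖ j z) :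
    ∃ s o : O, ρ s ≠ 0 ∧
      RedK r (Ψ z * (HahnSeries.C (algebraMap A K π) : LaurentSeries K) ^ (-j)) (ρ o / ρ s) := by
  obtain ⟨s, o, hs, e⟩ := h
  refine ⟨s, o, hs, ?_⟩
  rw [D.eq_div hs e]
  exact (D.red o).div (D.red s) hs

/-- `v_P(z) = j` ⟹ `Ψ z / π ^ j` is a Gauss unit, with reduction in `Frac (ρ O)`. -/
theorem of_vEq (h : VEq (RingHom.ker ρ) ϖ j z) :
    ∃ s o : O, ρ s ≠ 0 ∧ ρ o ≠ 0 ∧
      RedK r (Ψ z * (HahnSeries.C (algebraMap A K π) : LaurentSeries K) ^ (-j)) (ρ o / ρ s) := by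
  obtain ⟨s, o, hs, ho, e⟩ := h
  refine ⟨s, o, hs, ho, ?_⟩
  rw [D.eq_div hs e]
  exact (D.red o).div (D.red s) hs

/-- shifting the exponent up kills the reduction. -/
theorem redK_shift {j' : ℤ} (hj : j' < j)
    (h : RedK r (Ψ z * (HahnSeries.C (algebraMap A K π) : LaurentSeries K) ^ (-j)) a) :
    RedK r (Ψ z * (HahnSeries.C (algebraMap A K π) : LaurentSeries K) ^ (-j')) 0 := by
  obtain ⟨n, hn, rfl⟩ : ∃ n : ℕ, n ≠ 0 ∧ j = j' + n := ⟨(j - j').toNat, by omega, by omega⟩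
  have h1 := h.mul (D.redK_pow hn)
  rw [mul_zero] at h1
  refine h1.congr ?_ rfl
  rw [mul_assoc, ← zpow_natCast, ← zpow_add₀ D.C_ne_zero]
  congr 2
  ring

variable [IsNoetherianRing O]

theorem vGe_of (hP : LocPrin (RingHom.ker ρ) ϖ)
    (h : RedK r (Ψ z * (HahnSeries.C (algebraMap A K π) : LaurentSeries K) ^ (-j)) a) :
    VGe (RingHom.ker ρ) ϖ j z := by
  by_cases hz : z = 0
  · rw [hz]; exact vGe_zero hP j
  obtain ⟨j', hj'⟩ := exists_vEq hP hz
  by_cases hjj : j ≤ j'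
  · exact hj'.vGe.mono hP hjj
  · exfalso
    obtain ⟨s, o, hs, ho, h2⟩ := D.of_vEq hj'
    have h3 := D.redK_shift (not_le.1 hjj) h
    exact div_ne_zero ho hs (h2.unique h3)

theorem vEq_of (hP : LocPrin (RingHom.ker ρ) ϖ)
    (h : RedK r (Ψ z * (HahnSeries.C (algebraMap A K π) : LaurentSeries K) ^ (-j)) a)
    (ha : a ≠ 0) : VEq (RingHom.ker ρ) ϖ j z := by
  have hz : z ≠ 0 := by
    rintro rfl
    rw [map_zero, zero_mul] at h
    exact ha (h.unique RedK.zero)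
  obtain ⟨j', hj'⟩ := exists_vEq hP hz
  obtain ⟨s, o, hs, ho, h2⟩ := D.of_vEq hj'
  rcases lt_trichotomy j j' with hlt | rfl | hlt
  · exact absurd (h.unique (D.redK_shift hlt h2)) ha
  · exact hj'
  · exact absurd (h2.unique (D.redK_shift hlt h)) (div_ne_zero ho hs)

theorem vEq_iff (hP : LocPrin (RingHom.ker ρ) ϖ) :
    VEq (RingHom.ker ρ) ϖ j z ↔ ∃ a, a ≠ 0 ∧
      RedK r (Ψ z * (HahnSeries.C (algebraMap A K π) : LaurentSeries K) ^ (-j)) a := by
  constructor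
  · intro h
    obtain ⟨s, o, hs, ho, h2⟩ := D.of_vEq h
    exact ⟨_, div_ne_zero ho hs, h2⟩
  · rintro ⟨a, ha, h⟩
    exact D.vEq_of hP h ha

theorem vGe_iff (hP : LocPrin (RingHom.ker ρ) ϖ) :
    VGe (RingHom.ker ρ) ϖ j z ↔ ∃ a,
      RedK r (Ψ z * (HahnSeries.C (algebraMap A K π) : LaurentSeries K) ^ (-j)) a := by
  constructor
  · intro h
    obtain ⟨s, o, hs, h2⟩ := D.of_vGe h
    exact ⟨_, h2⟩
  · rintro ⟨a, h⟩
    exact D.vGe_of hP h

end RedData

end Fermat.Agent.S44.Bridge
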