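import Fermat.Agent.S44.Loc.Etale
import Fermat.Agent.S44.Bridge.Place
import Fermat.Agent.S44.Bridge.RedDict

/-!
# S44 / Bridge / Up : reduction maps on the cover ring `S' = S[z]`.

`pb : PowerBasis S S'`, `χ : S →+* 𝕃` (a field), `a : S` with `G(a) ∈ ker χ` (`G = minpoly S z`).

* `chiUp pb χ a ha : S' →+* 𝕃` : the extension of `χ` with `z ↦ χ a`;   `ker_chiUp : ker = Loc.up pb (ker χ) a ha`;
* `exists_of_notMem_up` : `x' ∉ up pb n a _ ⟹ ∃ x₀ ∉ n, chiUp x' = χ x₀`  (so "centres" go up);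
* `RedData.up` : `RedData` for `S'` from `RedData` for `S` and `RedK r (Ψ' z) (ρ a)`;
* `RedData.rd` : `RedK r (Ψ u * π ^ (-j)) a₀ ⟹ Rd ρ ϖ j u a₀`;   `Rd.of_comp` : descent of `Rd` to a subfield.
-/

set_option autoImplicit false
set_option linter.unusedSectionVars false

open Polynomial

namespace Fermat.Agent.S44.Bridge

open Fermat.Agent.S44.Loc Fermat.Agent.SS.GM2

noncomputable section

section Chi

variable {S S' : Type*} [CommRing S] [CommRing S'] [Algebra S S'] (pb : PowerBasis S S')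
  {𝕃 : Type*} [Field 𝕃] (χ : S →+* 𝕃) (a : S) (ha : (minpoly S pb.gen).eval a ∈ RingHom.ker χ)

/-- the extension of `χ` to `S' = S[z]` with `z ↦ χ a`. -/
def chiUp : S' →+* 𝕃 :=
  (RingHom.kerLift χ).comp (ev pb (RingHom.ker χ) a ha : S' →+* S ⧸ RingHom.ker χ)

variable {pb χ a ha}

theorem chiUp_aeval (P : S[X]) : chiUp pb χ a ha (aeval pb.gen P) = χ (P.eval a) := by
  change RingHom.kerLift χ (ev pb (RingHom.ker χ) a ha (aeval pb.gen P)) = _
  rw [ev_aeval, RingHom.kerLift_mk]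

@[simp] theorem chiUp_algebraMap (s : S) : chiUp pb χ a ha (algebraMap S S' s) = χ s := by
  change RingHom.kerLift χ (ev pb (RingHom.ker χ) a ha (algebraMap S S' s)) = _
  rw [ev_algebraMap, RingHom.kerLift_mk]

@[simp] theorem chiUp_gen : chiUp pb χ a ha pb.gen = χ a := by
  change RingHom.kerLift χ (ev pb (RingHom.ker χ) a ha pb.gen) = _
  rw [ev_gen, RingHom.kerLift_mk]

theorem ker_chiUp : RingHom.ker (chiUp pb χ a ha) = up pb (RingHom.ker χ) a ha := by
  ext x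
  rw [RingHom.mem_ker, up, RingHom.mem_ker]
  change RingHom.kerLift χ (ev pb (RingHom.ker χ) a ha x) = 0 ↔ _
  rw [map_eq_zero_iff _ (RingHom.kerLift_injective χ)]

theorem exists_of_notMem_up {n : Ideal S} (hn1 : (minpoly S pb.gen).eval a ∈ n) {x : S'}
    (hx : x ∉ up pb n a hn1) : ∃ x₀, x₀ ∉ n ∧ chiUp pb χ a ha x = χ x₀ := by
  obtain ⟨x₀, w, rfl⟩ := exists_eq_add_mul pb a x
  refine ⟨x₀, fun h => hx ((mem_up_iff hn1).2 ⟨x₀, h, w, rfl⟩), ?_⟩
  rw [map_add, map_mul, map_sub, chiUp_gen, chiUp_algebraMap, chiUp_algebraMap, sub_self, zero_mul,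
    add_zero]

/-- the values of `chiUp` are values of `χ`. -/
theorem exists_chiUp_eq (x : S') : ∃ x₀, chiUp pb χ a ha x = χ x₀ := by
  obtain ⟨x₀, w, rfl⟩ := exists_eq_add_mul pb a x
  refine ⟨x₀, ?_⟩
  rw [map_add, map_mul, map_sub, chiUp_gen, chiUp_algebraMap, chiUp_algebraMap, sub_self, zero_mul,
    add_zero]

end Chi

section Red

variable {A K k : Type*} [CommRing A] [IsDomain A] [Field K] [Algebra A K] [IsFractionRing A K]
  [Field k] {r : A →+* k} {π : A}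

section up

variable {S S' F F' : Type*} [CommRing S] [CommRing S'] [Algebra S S'] [Field F] [Field F']
  [Algebra S F] [Algebra S' F'] [Algebra S F'] [Algebra F F'] [IsScalarTower S F F']
  [IsScalarTower S S' F'] {pb : PowerBasis S S'}
  {Ψ : F →+* LaurentSeries K} {ρ : S →+* LaurentSeries k} {ϖ : S}

/-- `RedData` goes up to `S' = S[z]`. -/
theorem RedData.up (D : RedData r π Ψ ρ ϖ) (Ψ' : F' →+* LaurentSeries K)
    (hΨ' : ∀ f, Ψ' (algebraMap F F' f) = Ψ f) (a : S)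
    (ha : (minpoly S pb.gen).eval a ∈ RingHom.ker ρ)
    (hz : RedK r (Ψ' (algebraMap S' F' pb.gen)) (ρ a)) :
    RedData r π Ψ' (chiUp pb ρ a ha) (algebraMap S S' ϖ) where
  red := by
    have hS : ∀ c : S, Ψ' (algebraMap S' F' (algebraMap S S' c)) = Ψ (algebraMap S F c) := by
      intro c
      rw [← IsScalarTower.algebraMap_apply S S' F', IsScalarTower.algebraMap_apply S F F', hΨ']
    have key : ∀ P : S[X], RedK r (Ψ' (algebraMap S' F' (aeval pb.gen P))) (ρ (P.eval a)) := by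
      intro P
      induction P using Polynomial.induction_on' with
      | add p q hp hq =>
        rw [map_add, map_add, map_add, eval_add, map_add]
        exact hp.add hq
      | monomial n c =>
        rw [aeval_monomial, map_mul, map_mul, map_pow, map_pow, hS, eval_monomial, map_mul, map_pow]
        exact (D.red c).mul (hz.pow n)
    intro x
    obtain ⟨P, rfl⟩ := pb.exists_eq_aeval' x
    rw [chiUp_aeval]
    exact key P
  pi := by
    rw [← IsScalarTower.algebraMap_apply S S' F', IsScalarTower.algebraMap_apply S F F', hΨ', D.pi]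
  rpi := D.rpi
  ne := D.ne

end up

variable {O F : Type*} [CommRing O] [IsDomain O] [Field F] [Algebra O F] [IsFractionRing O F]
  {Ψ : F →+* LaurentSeries K} {ρ : O →+* LaurentSeries k} {ϖ : O}

/-- Gauss reduction ⟹ `Rd`. -/
theorem RedData.rd [IsNoetherianRing O] (D : RedData r π Ψ ρ ϖ) (hP : LocPrin (RingHom.ker ρ) ϖ)
    {j : ℤ} {u : F} {a₀ : LaurentSeries k}
    (h : RedK r (Ψ u * (HahnSeries.C (algebraMap A K π) : LaurentSeries K) ^ (-j)) a₀) :
    Rd ρ ϖ j u a₀ := by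
  obtain ⟨s, o, hs, e⟩ := D.vGe_of hP h
  refine ⟨s, o, hs, e, ?_⟩
  have h1 : RedK r (Ψ u * (HahnSeries.C (algebraMap A K π) : LaurentSeries K) ^ (-j))
      (ρ o / ρ s) := by
    rw [D.eq_div hs e]
    exact (D.red o).div (D.red s) hs
  rw [h.unique h1, div_mul_cancel₀ _ hs]

/-- `Rd` ⟹ Gauss reduction. -/
theorem RedData.redK_of_rd (D : RedData r π Ψ ρ ϖ) {j : ℤ} {u : F} {a₀ : LaurentSeries k}
    (h : Rd ρ ϖ j u a₀) :
    RedK r (Ψ u * (HahnSeries.C (algebraMap A K π) : LaurentSeries K) ^ (-j)) a₀ := by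
  obtain ⟨s, o, hs, e, ha⟩ := h
  rw [D.eq_div hs e]
  have := (D.red o).div (D.red s) hs
  rwa [← ha, mul_div_cancel_right₀ _ hs] at this

end Red

/-- descent of `Rd` along a field embedding. -/
theorem Rd.of_comp {O F 𝕃 𝕃' : Type*} [CommRing O] [Field F] [Algebra O F] [Field 𝕃] [Field 𝕃']
    {χ : O →+* 𝕃} (emb : 𝕃 →+* 𝕃') {ϖ : O} {j : ℤ} {u : F} {a : 𝕃}
    (h : Rd (emb.comp χ) ϖ j u (emb a)) : Rd χ ϖ j u a := by
  obtain ⟨s, o, hs, e, ha⟩ := h
  refine ⟨s, o, fun h0 => hs (by rw [RingHom.comp_apply, h0, map_zero]), e, emb.injective ?_⟩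
  rw [map_mul]
  exact ha

theorem Rd.comp {O F 𝕃 𝕃' : Type*} [CommRing O] [Field F] [Algebra O F] [Field 𝕃] [Field 𝕃']
    {χ : O →+* 𝕃} (emb : 𝕃 →+* 𝕃') {ϖ : O} {j : ℤ} {u : F} {a : 𝕃}
    (h : Rd χ ϖ j u a) : Rd (emb.comp χ) ϖ j u (emb a) := by
  obtain ⟨s, o, hs, e, ha⟩ := h
  refine ⟨s, o, (map_ne_zero emb).2 hs, e, ?_⟩
  rw [RingHom.comp_apply, RingHom.comp_apply, ← map_mul, ha]

end

end Fermat.Agent.S44.Bridge
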