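import Fermat.Agent.S44.Loc.At
import Fermat.Agent.SS.G2.Bridge

/-!
# S44 / Bridge / Abs : `SS.G2.BridgeData`  ⟹  `Loc.NodeAt` / `Loc.SmoothAt` at every closed point of the special fibre of the chart.

Setting of one chart (`Crux/G`, `SS/G2`): `A` a DVR with uniformiser `π`, `E = Frac A[X]`, `F / E` finite, char. 0.
`SM A F` = integral closure of `A[X]` in `F` (the chart ring), `B : BridgeData hπ F k Ω` (two reductions `ρ₁ ρ₂ : O_F → Ω`, `R ⊆ Ω`,
`(a, Φ a), (Φ a, a) ∈ ρ(M)`, `(Φ∘Φ)^f = ( )^Q₀` on `R`).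

* `r₁ B`, `r₂ B : SM A F →+* Ω`, `Q₁ B`, `Q₂ B` their kernels (the two components), `pi : SM A F`;
* `trichotomy` : for every maximal ideal `n ∋ π`:  `NodeAt n π Q₁ Q₂ ∨ (SmoothAt n π Q₁ ∧ ¬ Q₂ ≤ n) ∨ (SmoothAt n π Q₂ ∧ ¬ Q₁ ≤ n)`;
* `normal`, `isNoetherianRing_SM`, `isFractionRing_SM`.
-/

set_option autoImplicit false
set_option linter.unusedSectionVars false
set_option linter.style.haveILetI false

open Polynomial

namespace Fermat.Agent.S44.Bridge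

open Fermat.Agent.Crux.G Fermat.Agent.SS.G2 Fermat.Agent.S44.Loc

noncomputable section

/-- elementwise valuation property of the local rings of a Dedekind domain. -/
theorem val_of_dedekind {R : Type*} [CommRing R] [IsDedekindDomain R] (P : Ideal R) [P.IsPrime]
    (a b : R) : ∃ s r, s ∉ P ∧ (s * a = r * b ∨ s * b = r * a) := by
  by_cases hP : P = ⊥
  · subst hP
    by_cases hb : b = 0
    · exact ⟨1, 0, by simp, Or.inr (by simp [hb])⟩
    · exact ⟨b, a, by simpa using hb, Or.inl (mul_comm _ _)⟩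
  · have := IsLocalization.AtPrime.isDiscreteValuationRing_of_dedekind_domain R hP
      (Localization.AtPrime P)
    have hinj : Function.Injective (algebraMap R (Localization.AtPrime P)) :=
      IsLocalization.injective _ P.primeCompl_le_nonZeroDivisors
    obtain ⟨c, hc⟩ := ValuationRing.cond (algebraMap R (Localization.AtPrime P) a)
      (algebraMap R (Localization.AtPrime P) b)
    obtain ⟨⟨r, s⟩, hrs⟩ := IsLocalization.surj P.primeCompl c
    simp only at hrs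
    refine ⟨s, r, s.2, ?_⟩
    rcases hc with hc | hc
    · right
      apply hinj
      rw [map_mul, map_mul, ← hc, ← hrs]; ring
    · left
      apply hinj
      rw [map_mul, map_mul, ← hc, ← hrs]; ring

variable {A : Type*} [CommRing A] [IsDomain A] {π : A} {hπ : Prime π}
variable {F : Type*} [Field F] [Algebra A[X] F]
variable {k Ω : Type*} [Field k] [Field Ω] [Algebra k Ω]

/-- the chart ring: the integral closure of `A[X]` in `F`. -/
abbrev SM (A : Type*) [CommRing A] (F : Type*) [Field F] [Algebra A[X] F] : Subalgebra A[X] F :=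
  integralClosure A[X] F

/-- the inclusion `M → O_F`. -/
def toOF (hπ : Prime π) : SM A F →+* OF hπ F :=
  (Subalgebra.inclusion (S := integralClosure A[X] F) (T := OF hπ F)
    (fun _ hy => IsOL.of_isIntegral hπ hy)).toRingHom

@[simp] theorem coe_toOF (x : SM A F) : ((toOF hπ x : OF hπ F) : F) = x := rfl

/-- the uniformiser, in the chart ring. -/
def pi (π : A) (F : Type*) [Field F] [Algebra A[X] F] : SM A F := algebraMap A[X] (SM A F) (C π)

theorem coe_pi : ((pi π F : SM A F) : F) = algebraMap A[X] F (C π) := rfl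

variable (B : BridgeData hπ F k Ω)

/-- first reduction on the chart ring. -/
def r₁ : SM A F →+* Ω := B.ρ₁.comp (toOF hπ)

/-- second reduction on the chart ring. -/
def r₂ : SM A F →+* Ω := B.ρ₂.comp (toOF hπ)

/-- the first component. -/
def Q₁ : Ideal (SM A F) := RingHom.ker (r₁ B)

/-- the second component. -/
def Q₂ : Ideal (SM A F) := RingHom.ker (r₂ B)

theorem mem_Q₁ {x : SM A F} : x ∈ Q₁ B ↔ r₁ B x = 0 := Iff.rfl

theorem mem_Q₂ {x : SM A F} : x ∈ Q₂ B ↔ r₂ B x = 0 := Iff.rfl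

instance : (Q₁ B).IsPrime := RingHom.ker_isPrime _

instance : (Q₂ B).IsPrime := RingHom.ker_isPrime _

theorem r₁_mem (x : SM A F) : r₁ B x ∈ B.R := (B.int_mem (toOF hπ x) x.2).1

theorem r₂_mem (x : SM A F) : r₂ B x ∈ B.R := (B.int_mem (toOF hπ x) x.2).2

theorem exists_r₁ {a : Ω} (ha : a ∈ B.R) : ∃ x : SM A F, r₁ B x = a ∧ r₂ B x = B.Φ a := by
  obtain ⟨y, hy, h1, h2⟩ := B.lift₁ a ha
  exact ⟨⟨y, hy⟩, h1, h2⟩

theorem exists_r₂ {a : Ω} (ha : a ∈ B.R) : ∃ x : SM A F, r₁ B x = B.Φ a ∧ r₂ B x = a := by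
  obtain ⟨y, hy, h1, h2⟩ := B.lift₂ a ha
  exact ⟨⟨y, hy⟩, h1, h2⟩

/-- `r₁` with values in `R`. -/
def r₁R : SM A F →+* B.R := (r₁ B).codRestrict B.R (r₁_mem B)

/-- `r₂` with values in `R`. -/
def r₂R : SM A F →+* B.R := (r₂ B).codRestrict B.R (r₂_mem B)

@[simp] theorem coe_r₁R (x : SM A F) : ((r₁R B x : B.R) : Ω) = r₁ B x := rfl

@[simp] theorem coe_r₂R (x : SM A F) : ((r₂R B x : B.R) : Ω) = r₂ B x := rfl

theorem r₁R_surjective : Function.Surjective (r₁R B) := fun a => by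
  obtain ⟨x, hx, -⟩ := exists_r₁ B a.2
  exact ⟨x, Subtype.ext hx⟩

theorem r₂R_surjective : Function.Surjective (r₂R B) := fun a => by
  obtain ⟨x, -, hx⟩ := exists_r₂ B a.2
  exact ⟨x, Subtype.ext hx⟩

theorem ker_r₁R : RingHom.ker (r₁R B) = Q₁ B := by
  ext x
  rw [RingHom.mem_ker, mem_Q₁, ← coe_r₁R, ZeroMemClass.coe_eq_zero]

theorem ker_r₂R : RingHom.ker (r₂R B) = Q₂ B := by
  ext x
  rw [RingHom.mem_ker, mem_Q₂, ← coe_r₂R, ZeroMemClass.coe_eq_zero]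

theorem r₁_algebraMap (s : A[X]) : r₁ B (algebraMap A[X] (SM A F) s) =
    aeval (B.ρ₁ (algebraMap A[X] (OF hπ F) X)) (s.map B.res) :=
  Bridge.rho₁_algebraMap B s

theorem r₂_algebraMap (s : A[X]) : r₂ B (algebraMap A[X] (SM A F) s) =
    aeval (B.ρ₂ (algebraMap A[X] (OF hπ F) X)) (s.map B.res) :=
  Bridge.rho₂_algebraMap B s

theorem map_res_eq_zero_iff (s : A[X]) : s.map B.res = 0 ↔ C π ∣ s := by
  rw [Polynomial.C_dvd_iff_dvd_coeff, Polynomial.ext_iff]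
  simp only [coeff_map, coeff_zero, B.res_ker]

theorem pi_mem_Q₁ : pi π F ∈ Q₁ B := by
  rw [mem_Q₁, pi, r₁_algebraMap, (map_res_eq_zero_iff B _).2 dvd_rfl, map_zero]

theorem pi_mem_Q₂ : pi π F ∈ Q₂ B := by
  rw [mem_Q₂, pi, r₂_algebraMap, (map_res_eq_zero_iff B _).2 dvd_rfl, map_zero]

/-- `x - x ^ Q₀ ∈ Q₁ + Q₂`: the gluing locus is a product of finite fields. -/
theorem exists_pow_sub_mem : ∃ Q₀ : ℕ, 1 < Q₀ ∧ ∀ x : SM A F, x - x ^ Q₀ ∈ Q₁ B ⊔ Q₂ B := by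
  obtain ⟨f, Q₀, hQ₀, hfrob⟩ := B.frob
  refine ⟨Q₀, hQ₀, fun x => ?_⟩
  have h := Bridge.mk_pow_of_iter B (hfrob (r₂R B x) (r₂R B x).2)
  rw [← map_pow, Ideal.Quotient.eq, Bridge.mem_I₂] at h
  obtain ⟨y, hy, h1, h2⟩ := h
  have e : x - x ^ Q₀ = (⟨y, hy⟩ : SM A F) + (x - x ^ Q₀ - ⟨y, hy⟩) := by ring
  rw [e]
  refine Ideal.add_mem _ (Ideal.mem_sup_left h1) (Ideal.mem_sup_right ?_)
  rw [mem_Q₂, map_sub, map_sub, map_pow]
  have : r₂ B ⟨y, hy⟩ = r₂ B x - r₂ B x ^ Q₀ := h2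
  rw [this, sub_self]

theorem sup_at {n : Ideal (SM A F)} (hn : n.IsMaximal) {x : SM A F} (hx : x ∈ n) :
    ∃ s, s ∉ n ∧ s * x ∈ Q₁ B ⊔ Q₂ B := by
  obtain ⟨Q₀, hQ₀, h⟩ := exists_pow_sub_mem B
  refine ⟨1 - x ^ (Q₀ - 1), fun hs => ?_, ?_⟩
  · apply hn.ne_top
    rw [Ideal.eq_top_iff_one]
    have : (1 : SM A F) = (1 - x ^ (Q₀ - 1)) + x ^ (Q₀ - 1) := by ring
    rw [this]
    exact Ideal.add_mem _ hs (Ideal.pow_mem_of_mem _ hx _ (by omega))
  · have : (1 - x ^ (Q₀ - 1)) * x = x - x ^ Q₀ := by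
      obtain ⟨j, rfl⟩ : ∃ j, Q₀ = j + 1 := ⟨Q₀ - 1, by omega⟩
      simp only [Nat.add_sub_cancel]
      ring
    rw [this]
    exact h x

/-! ### the part which needs `E = Frac A[X]`, `F / E` finite, `A` a DVR -/

section Fin

variable [IsDiscreteValuationRing A]
variable (E : Type*) [Field E] [Algebra A[X] E] [IsFractionRing A[X] E] [CharZero E]
  [Algebra E F] [IsScalarTower A[X] E F] [FiniteDimensional E F]

include E in
theorem isNoetherianRing_SM : IsNoetherianRing (SM A F) :=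
  IsIntegralClosure.isNoetherianRing A[X] E F (SM A F)

include E in
theorem isFractionRing_SM : IsFractionRing (SM A F) F :=
  integralClosure.isFractionRing_of_finite_extension E F

/-- `M` is integrally closed in `F`. -/
theorem normal : Normal (O := SM A F) F (pi π F) := by
  intro z hz
  have hz' : IsIntegral A[X] z := isIntegral_trans z hz
  exact ⟨0, ⟨z, hz'⟩, by rw [pow_zero, one_mul]; rfl⟩

include E in
/-- `Q₁ ∩ Q₂ = π M` (saturation). -/
theorem pi_dvd_of_mem {x : SM A F} (h1 : x ∈ Q₁ B) (h2 : x ∈ Q₂ B) : pi π F ∣ x := by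
  obtain ⟨z, hz, hxz⟩ := (B.ker (toOF hπ x)).1 ⟨h1, h2⟩
  have hz' : IsIntegral A[X] z := by
    refine isIntegral_of_isOL_of_isBK E hπ hz ⟨1, ?_⟩
    rw [pow_one, ← hxz]
    exact x.2
  refine ⟨⟨z, hz'⟩, Subtype.ext ?_⟩
  rw [MulMemClass.coe_mul, coe_pi, ← Algebra.smul_def]
  exact hxz

/-! ### `R` is a Dedekind domain -/

/-- `k[X] → R`, `X ↦ x₁`. -/
def φ₁ : k[X] →+* B.R := (aeval (r₁R B (algebraMap A[X] (SM A F) X)) : k[X] →ₐ[k] B.R)

theorem r₁R_comp : (r₁R B).comp (algebraMap A[X] (SM A F)) = (φ₁ B).comp (mapRingHom B.res) := by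
  refine Polynomial.ringHom_ext (fun a => ?_) ?_
  · apply Subtype.ext
    have h := r₁_algebraMap B (C a)
    rw [Polynomial.map_C, aeval_C] at h
    simp only [RingHom.comp_apply, coe_r₁R, h, φ₁, coe_mapRingHom, Polynomial.map_C]
    simp
  · simp [φ₁]

theorem isIntegralElem_R (a : B.R) : (φ₁ B).IsIntegralElem a := by
  obtain ⟨x, rfl⟩ := r₁R_surjective B a
  obtain ⟨p, hp, hpx⟩ := (Algebra.IsIntegral.isIntegral (R := A[X]) x)
  refine ⟨p.map (mapRingHom B.res), hp.map _, ?_⟩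
  rw [Polynomial.eval₂_map, ← r₁R_comp, ← Polynomial.hom_eval₂, hpx, map_zero]

theorem dimensionLEOne_R : Ring.DimensionLEOne B.R := by
  refine ⟨fun {P} hP0 hP => ?_⟩
  letI : Algebra k[X] B.R := (φ₁ B).toAlgebra
  haveI : Algebra.IsIntegral k[X] B.R := ⟨isIntegralElem_R B⟩
  obtain ⟨a, haP, ha0⟩ := Submodule.exists_mem_ne_zero_of_ne_bot hP0
  have h1 : P.comap (algebraMap k[X] B.R) ≠ ⊥ :=
    Ideal.comap_ne_bot_of_integral_mem ha0 haP (Algebra.IsIntegral.isIntegral a)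
  have h2 : (P.comap (algebraMap k[X] B.R)).IsMaximal :=
    Ideal.IsPrime.isMaximal (Ideal.comap_isPrime _ _) h1
  exact Ideal.isMaximal_of_isIntegral_of_isMaximal_comap P h2

include E in
theorem isDedekindDomain_R (hIC : IsIntegrallyClosed B.R) : IsDedekindDomain B.R := by
  haveI := isNoetherianRing_SM (A := A) (F := F) E
  haveI : IsNoetherianRing B.R := isNoetherianRing_of_surjective _ _ (r₁R B) (r₁R_surjective B)
  haveI := dimensionLEOne_R B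
  exact {}

include E in
theorem val₁ (hIC : IsIntegrallyClosed B.R) {n : Ideal (SM A F)} [n.IsPrime] (h1 : Q₁ B ≤ n)
    (a b : SM A F) : ∃ s r, s ∉ n ∧ (s * a - r * b ∈ Q₁ B ∨ s * b - r * a ∈ Q₁ B) := by
  haveI := isDedekindDomain_R B E hIC
  haveI : (n.map (r₁R B)).IsPrime :=
    Ideal.map_isPrime_of_surjective (r₁R_surjective B) (by rw [ker_r₁R]; exact h1)
  obtain ⟨s', r', hs', h⟩ := val_of_dedekind (n.map (r₁R B)) (r₁R B a) (r₁R B b)
  obtain ⟨s, rfl⟩ := r₁R_surjective B s'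
  obtain ⟨r, rfl⟩ := r₁R_surjective B r'
  refine ⟨s, r, fun hs => hs' (Ideal.mem_map_of_mem _ hs), ?_⟩
  rw [← ker_r₁R, RingHom.mem_ker, RingHom.mem_ker, map_sub, map_sub, map_mul, map_mul, map_mul,
    map_mul, sub_eq_zero, sub_eq_zero]
  exact h

include E in
theorem val₂ (hIC : IsIntegrallyClosed B.R) {n : Ideal (SM A F)} [n.IsPrime] (h2 : Q₂ B ≤ n)
    (a b : SM A F) : ∃ s r, s ∉ n ∧ (s * a - r * b ∈ Q₂ B ∨ s * b - r * a ∈ Q₂ B) := by
  haveI := isDedekindDomain_R B E hIC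
  haveI : (n.map (r₂R B)).IsPrime :=
    Ideal.map_isPrime_of_surjective (r₂R_surjective B) (by rw [ker_r₂R]; exact h2)
  obtain ⟨s', r', hs', h⟩ := val_of_dedekind (n.map (r₂R B)) (r₂R B a) (r₂R B b)
  obtain ⟨s, rfl⟩ := r₂R_surjective B s'
  obtain ⟨r, rfl⟩ := r₂R_surjective B r'
  refine ⟨s, r, fun hs => hs' (Ideal.mem_map_of_mem _ hs), ?_⟩
  rw [← ker_r₂R, RingHom.mem_ker, RingHom.mem_ker, map_sub, map_sub, map_mul, map_mul, map_mul,
    map_mul, sub_eq_zero, sub_eq_zero]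
  exact h

include E in
theorem pi_ne_zero (hπ : Prime π) : pi π F ≠ 0 := by
  intro h
  have h1 := congrArg (Subtype.val) h
  rw [coe_pi, ZeroMemClass.coe_zero, IsScalarTower.algebraMap_apply A[X] E F, map_eq_zero,
    map_eq_zero_iff _ (IsFractionRing.injective A[X] E), C_eq_zero] at h1
  exact hπ.ne_zero h1

end Fin

/-! ### the two components are different -/

section Eps

theorem r₁_algebraMap_ne_zero (ht₁ : Transcendental k (B.ρ₁ (algebraMap A[X] (OF hπ F) X)))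
    {s : A[X]} (hs : ¬ C π ∣ s) : r₁ B (algebraMap A[X] (SM A F) s) ≠ 0 := by
  rw [r₁_algebraMap]
  intro h
  exact hs ((map_res_eq_zero_iff B s).1 (transcendental_iff.1 ht₁ _ h))

theorem r₂_algebraMap_ne_zero (ht₂ : Transcendental k (B.ρ₂ (algebraMap A[X] (OF hπ F) X)))
    {s : A[X]} (hs : ¬ C π ∣ s) : r₂ B (algebraMap A[X] (SM A F) s) ≠ 0 := by
  rw [r₂_algebraMap]
  intro h
  exact hs ((map_res_eq_zero_iff B s).1 (transcendental_iff.1 ht₂ _ h))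

/-- every `y ∈ O_F` is `x / s`, `x ∈ M`, `s ∈ A[X] ∖ (π)`. -/
theorem exists_smul_eq (y : OF hπ F) : ∃ (s : A[X]) (x : SM A F), ¬ C π ∣ s ∧
    toOF hπ x = toOF hπ (algebraMap A[X] (SM A F) s) * y := by
  obtain ⟨s, hs, hint⟩ := y.2
  refine ⟨s, ⟨s • (y : F), hint⟩, hs, Subtype.ext ?_⟩
  exact Algebra.smul_def s (y : F)

variable (ht₁ : Transcendental k (B.ρ₁ (algebraMap A[X] (OF hπ F) X)))
  (ht₂ : Transcendental k (B.ρ₂ (algebraMap A[X] (OF hπ F) X)))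
  (ε : OF hπ F) (hε₁ : B.ρ₁ ε = 1) (hε₂ : B.ρ₂ ε = 0)

include ht₁ hε₁ hε₂ in
theorem exists_mem_Q₂ : ∃ x : SM A F, x ∈ Q₂ B ∧ x ∉ Q₁ B := by
  obtain ⟨s, x, hs, hx⟩ := exists_smul_eq ε
  refine ⟨x, ?_, ?_⟩
  · rw [mem_Q₂, r₂, RingHom.comp_apply, hx, map_mul, hε₂, mul_zero]
  · rw [mem_Q₁, r₁, RingHom.comp_apply, hx, map_mul, hε₁, mul_one]
    exact r₁_algebraMap_ne_zero B ht₁ hs

include ht₂ hε₁ hε₂ in
theorem exists_mem_Q₁ : ∃ x : SM A F, x ∈ Q₁ B ∧ x ∉ Q₂ B := by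
  obtain ⟨s, x, hs, hx⟩ := exists_smul_eq (1 - ε)
  refine ⟨x, ?_, ?_⟩
  · rw [mem_Q₁, r₁, RingHom.comp_apply, hx, map_mul, map_sub, hε₁, map_one, sub_self, mul_zero]
  · rw [mem_Q₂, r₂, RingHom.comp_apply, hx, map_mul, map_sub, hε₂, map_one, sub_zero, mul_one]
    exact r₂_algebraMap_ne_zero B ht₂ hs

end Eps

/-! ### the main result -/

section Main

variable [IsDiscreteValuationRing A]
variable (E : Type*) [Field E] [Algebra A[X] E] [IsFractionRing A[X] E] [CharZero E]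
  [Algebra E F] [IsScalarTower A[X] E F] [FiniteDimensional E F]
variable (hIC : IsIntegrallyClosed B.R)
  (ht₁ : Transcendental k (B.ρ₁ (algebraMap A[X] (OF hπ F) X)))
  (ht₂ : Transcendental k (B.ρ₂ (algebraMap A[X] (OF hπ F) X)))
  (ε : OF hπ F) (hε₁ : B.ρ₁ ε = 1) (hε₂ : B.ρ₂ ε = 0)

include E hIC ht₁ ht₂ hε₁ hε₂ in
theorem nodeAt {n : Ideal (SM A F)} (hn : n.IsMaximal) (h1 : Q₁ B ≤ n) (h2 : Q₂ B ≤ n) :
    NodeAt n (pi π F) (Q₁ B) (Q₂ B) := by
  haveI := hn.isPrime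
  exact
  { max := hn
    prime1 := inferInstance
    prime2 := inferInstance
    le1 := h1
    le2 := h2
    ne_zero := pi_ne_zero E hπ
    mem1 := pi_mem_Q₁ B
    mem2 := pi_mem_Q₂ B
    inf := fun x hx1 hx2 => ⟨1, fun h => hn.ne_top ((Ideal.eq_top_iff_one _).2 h), by
      rw [one_mul]; exact pi_dvd_of_mem B E hx1 hx2⟩
    sup := fun x hx => sup_at B hn hx
    not_le12 := fun h => by
      obtain ⟨x, hx1, hx2⟩ := exists_mem_Q₁ B ht₂ ε hε₁ hε₂
      exact hx2 (h hx1)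
    not_le21 := fun h => by
      obtain ⟨x, hx2, hx1⟩ := exists_mem_Q₂ B ht₁ ε hε₁ hε₂
      exact hx1 (h hx2)
    val1 := val₁ B E hIC h1
    val2 := val₂ B E hIC h2 }

include E hIC in
theorem smoothAt₁ {n : Ideal (SM A F)} (hn : n.IsMaximal) (h1 : Q₁ B ≤ n) (h2 : ¬ Q₂ B ≤ n) :
    SmoothAt n (pi π F) (Q₁ B) := by
  haveI := hn.isPrime
  obtain ⟨t, ht2, htn⟩ := SetLike.not_le_iff_exists.1 h2
  exact
  { max := hn
    prime := inferInstance
    le := h1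
    ne_zero := pi_ne_zero E hπ
    mem := pi_mem_Q₁ B
    gen := fun x hx => ⟨t, htn, pi_dvd_of_mem B E (Ideal.mul_mem_left _ _ hx)
      (Ideal.mul_mem_right _ _ ht2)⟩
    val := val₁ B E hIC h1 }

include E hIC in
theorem smoothAt₂ {n : Ideal (SM A F)} (hn : n.IsMaximal) (h1 : ¬ Q₁ B ≤ n) (h2 : Q₂ B ≤ n) :
    SmoothAt n (pi π F) (Q₂ B) := by
  haveI := hn.isPrime
  obtain ⟨t, ht1, htn⟩ := SetLike.not_le_iff_exists.1 h1
  exact
  { max := hn
    prime := inferInstance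
    le := h2
    ne_zero := pi_ne_zero E hπ
    mem := pi_mem_Q₂ B
    gen := fun x hx => ⟨t, htn, pi_dvd_of_mem B E (Ideal.mul_mem_right _ _ ht1)
      (Ideal.mul_mem_left _ _ hx)⟩
    val := val₂ B E hIC h2 }

include E hIC ht₁ ht₂ hε₁ hε₂ in
/-- **Bridge.**  Every closed point of the special fibre of the chart is a node or a smooth point. -/
theorem trichotomy {n : Ideal (SM A F)} (hn : n.IsMaximal) (hπn : pi π F ∈ n) :
    NodeAt n (pi π F) (Q₁ B) (Q₂ B) ∨ (SmoothAt n (pi π F) (Q₁ B) ∧ ¬ Q₂ B ≤ n) ∨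
      (SmoothAt n (pi π F) (Q₂ B) ∧ ¬ Q₁ B ≤ n) := by
  by_cases h1 : Q₁ B ≤ n
  · by_cases h2 : Q₂ B ≤ n
    · exact Or.inl (nodeAt B E hIC ht₁ ht₂ ε hε₁ hε₂ hn h1 h2)
    · exact Or.inr (Or.inl ⟨smoothAt₁ B E hIC hn h1 h2, h2⟩)
  · by_cases h2 : Q₂ B ≤ n
    · exact Or.inr (Or.inr ⟨smoothAt₂ B E hIC hn h1 h2, h1⟩)
    · exfalso
      obtain ⟨a, ha1, han⟩ := SetLike.not_le_iff_exists.1 h1
      obtain ⟨b, hb2, hbn⟩ := SetLike.not_le_iff_exists.1 h2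
      obtain ⟨c, hc⟩ := pi_dvd_of_mem B E (Ideal.mul_mem_right b _ ha1) (Ideal.mul_mem_left _ a hb2)
      have : a * b ∈ n := hc ▸ Ideal.mul_mem_right _ _ hπn
      exact (hn.isPrime.mem_or_mem this).elim han hbn

include E ht₁ hε₁ hε₂ in
/-- `LocPrin` for the first component. -/
theorem locPrin₁ : LocPrin (Q₁ B) (pi π F) := by
  obtain ⟨t, ht2, ht1⟩ := exists_mem_Q₂ B ht₁ ε hε₁ hε₂
  exact ⟨inferInstance, pi_ne_zero E hπ, pi_mem_Q₁ B, fun o ho =>
    ⟨t, ht1, pi_dvd_of_mem B E (Ideal.mul_mem_left _ _ ho) (Ideal.mul_mem_right _ _ ht2)⟩⟩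

include E ht₂ hε₁ hε₂ in
/-- `LocPrin` for the second component. -/
theorem locPrin₂ : LocPrin (Q₂ B) (pi π F) := by
  obtain ⟨t, ht1, ht2⟩ := exists_mem_Q₁ B ht₂ ε hε₁ hε₂
  exact ⟨inferInstance, pi_ne_zero E hπ, pi_mem_Q₂ B, fun o ho =>
    ⟨t, ht2, pi_dvd_of_mem B E (Ideal.mul_mem_right _ _ ht1) (Ideal.mul_mem_left _ _ ho)⟩⟩

end Main

end

end Fermat.Agent.S44.Bridge
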