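import Fermat.Agent.S44.Bridge.Pkg
import Fermat.Agent.S44.PL.Ctx
import Fermat.Agent.S44.XD.Chart

/-!
# S44 / Bridge / Ctx : the chart packages of `Const.ncv` / `Const.cuv` in the setting `PL.Ctx`.

`C : PL.Ctx M p r π Φ w X ζ`.  Chart `X` : `letI := algL (A := A) F X`, `S = SM A F`; chart `1/X` : `letI := algL (A := A) F X⁻¹`.

* `chart_inst` : `IsNoetherianRing`, `IsIntegrallyClosed`, `IsFractionRing _ F` for `SM A F` (any chart `x`);
* `exists_good0`, `exists_goodinf` : the `Good` bridge data of the two charts;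
* `pi_dvd_p`;
* `locPrin₁_x`, `locPrin₂_x`, `tri_x` : `Good.locPrin₁/₂`, `Good.tri` without the `E`-instances;
* `exists_XData` : the modular unit `XD` in the chart `X`, `T = 12 (p - 1)`;
* `smoothAt_inf` : the hypothesis `hsm` of `Const.cuv` (chart `1/X`).
-/

set_option autoImplicit false
set_option linter.unusedSectionVars false
set_option linter.style.haveILetI false

open Polynomial ModularCurve

namespace Fermat.Agent.S44.Bridge

open Fermat.Agent.Crux.G Fermat.Agent.SS.G2 Fermat.Agent.S44.Loc Fermat.Agent.SS.GM2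
open Fermat.Agent.S28 (V J evAt)
open Fermat.Agent.Crux.GM (castS)

noncomputable section

variable {M p : ℕ} [NeZero M] [NeZero p]
variable {A K k : Type} [CommRing A] [IsDomain A] [IsDiscreteValuationRing A] [Field K]
  [CharZero K] [Algebra A K] [IsFractionRing A K] [Field k] [Finite k]
  {r : A →+* k} {π : A}
variable {F : Type} [Field F] [Algebra A F] {Φ : F →+* LaurentSeries K} {w : F →+* F}
variable {E : Type} [Field E] [CharZero E] [Algebra A E] [Algebra E F] [IsScalarTower A E F]
  [FiniteDimensional E F]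

/-! ### a general chart `x` -/

section Gen

variable {x : E} (hxt : Transcendental A x)
  (hgen : ∀ c : E, ∃ P Q : A[X], Q ≠ 0 ∧ c * aeval x Q = aeval x P)

include hxt hgen

theorem chart_inst : letI := algL (A := A) F x
    IsNoetherianRing (SM A F) ∧ IsIntegrallyClosed (SM A F) ∧ IsFractionRing (SM A F) F := by
  letI := algE (A := A) x
  letI := algL (A := A) F x
  haveI := isFractionRing_algE hxt hgen
  haveI : IsScalarTower A[X] E F := isScalarTower_alg x
  exact ⟨isNoetherianRing_SM E, isIntegrallyClosed_SM E, isFractionRing_SM E⟩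

variable {tk : LaurentSeries k} {hπ : Prime π}

theorem locPrin₁_x : letI := algL (A := A) F x
    ∀ {B : BridgeData hπ F k (LaurentSeries k)}, Good M r Φ w tk B → LocPrin (Q₁ B) (pi π F) := by
  letI := algE (A := A) x
  letI := algL (A := A) F x
  haveI := isFractionRing_algE hxt hgen
  haveI : IsScalarTower A[X] E F := isScalarTower_alg x
  exact fun {_} G => G.locPrin₁ E

theorem locPrin₂_x : letI := algL (A := A) F x
    ∀ {B : BridgeData hπ F k (LaurentSeries k)}, Good M r Φ w tk B → LocPrin (Q₂ B) (pi π F) := by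
  letI := algE (A := A) x
  letI := algL (A := A) F x
  haveI := isFractionRing_algE hxt hgen
  haveI : IsScalarTower A[X] E F := isScalarTower_alg x
  exact fun {_} G => G.locPrin₂ E

theorem tri_x : letI := algL (A := A) F x
    ∀ {B : BridgeData hπ F k (LaurentSeries k)}, Good M r Φ w tk B →
      ∀ n : Ideal (SM A F), n.IsMaximal → Q₁ B ≤ n →
        NodeAt n (pi π F) (Q₁ B) (Q₂ B) ∨ SmoothAt n (pi π F) (Q₁ B) := by
  letI := algE (A := A) x
  letI := algL (A := A) F x
  haveI := isFractionRing_algE hxt hgen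
  haveI : IsScalarTower A[X] E F := isScalarTower_alg x
  exact fun {_} G => G.tri E

end Gen

/-- constants in the chart ring. -/
theorem coe_algebraMap_C (x : E) (a : A) : letI := algL (A := A) F x
    ((algebraMap A[X] (SM A F) (C a) : SM A F) : F) = algebraMap A F a := by
  letI := algL (A := A) F x
  change algebraMap E F (aeval x (C a : A[X])) = _
  rw [aeval_C, ← IsScalarTower.algebraMap_apply]

/-- the coordinate in the chart ring. -/
theorem coe_algebraMap_X (x : E) : letI := algL (A := A) F x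
    ((algebraMap A[X] (SM A F) X : SM A F) : F) = algebraMap E F x := by
  letI := algL (A := A) F x
  change algebraMap E F (aeval x (X : A[X])) = _
  rw [aeval_X]

theorem pi_dvd_natCast (x : E) {n : ℕ} (h : π ∣ (n : A)) : letI := algL (A := A) F x
    pi π F ∣ (n : SM A F) := by
  letI := algL (A := A) F x
  obtain ⟨d, hd⟩ := h
  refine ⟨algebraMap A[X] (SM A F) (C d), ?_⟩
  rw [pi, ← map_mul, ← C_mul, ← hd, map_natCast, map_natCast]

/-- the constants of a finite field lie in every valuation ring. -/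
theorem const_mem_val {L : Type*} [Field L] [Algebra k L] (W : ValuationSubring L) (c : k) :
    algebraMap k L c ∈ W := by
  by_cases hc : c = 0
  · rw [hc, map_zero]; exact zero_mem _
  rcases W.mem_or_inv_mem (algebraMap k L c) with h | h
  · exact h
  · obtain ⟨n, hn, hcn⟩ := isOfFinOrder_iff_pow_eq_one.1 (isOfFinOrder_of_finite (Units.mk0 c hc))
    have h1 : c ^ n = 1 := by
      have := congrArg Units.val hcn
      simpa using this
    have h2 : algebraMap k L c = (algebraMap k L c)⁻¹ ^ (n - 1) := by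
      have h3 : algebraMap k L c ≠ 0 := by rwa [Ne, map_eq_zero]
      have h4 : algebraMap k L c ^ (n - 1) * algebraMap k L c = 1 := by
        rw [← pow_succ, Nat.sub_add_cancel hn, ← map_pow, h1, map_one]
      rw [inv_pow]
      exact eq_inv_of_mul_eq_one_right h4
    rw [h2]
    exact pow_mem h _

/-- `Good.rL_mem_val` for a finite `k`. -/
theorem rL_mem_val' [Algebra A[X] F] {tk : LaurentSeries k} {hπ : Prime π}
    {B : BridgeData hπ F k (LaurentSeries k)} (G : Good M r Φ w tk B)
    (W : ValuationSubring (modularFunctionFieldFullC k M))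
    (hx : G.rL (algebraMap A[X] (SM A F) X) ∈ W) (s : SM A F) : G.rL s ∈ W :=
  G.rL_mem_val W (const_mem_val W) hx s

variable {X : E} {ζ : A} (C : PL.Ctx M p r π Φ w X ζ)

include C

theorem xk_ne_zero : castS k (Xh M p) ≠ 0 := by
  rw [castS, map_mul]
  exact mul_ne_zero (castS_Jh_ne_zero k M) (castS_Jh_ne_zero k (M * p))

theorem xk_order_neg : (castS k (Xh M p)).order < 0 := by
  have e : castS k (Xh M p) = castS k (Jh M) * castS k (Jh (M * p)) :=
    map_mul (coeffMap (Int.castRingHom k)) _ _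
  rw [e, HahnSeries.order_mul (castS_Jh_ne_zero k M) (castS_Jh_ne_zero k (M * p)),
    order_castS_Jh, order_castS_Jh]
  have : 0 < M * p := Nat.pos_of_ne_zero (NeZero.ne _)
  have h2 : (0 : ℤ) < ((M * p : ℕ) : ℤ) := by exact_mod_cast this
  have h3 : (0 : ℤ) ≤ (M : ℤ) := Int.natCast_nonneg _
  omega

theorem xk_transcendental : Transcendental k (castS k (Xh M p)) :=
  Fermat.Agent.Crux.GM.transcendental_of_order_neg _ (xk_order_neg C)

theorem xk_inv_transcendental : Transcendental k (castS k (Xh M p))⁻¹ :=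
  fun h => xk_transcendental C (IsAlgebraic.inv_iff.mp h)

/-- chart `X`. -/
theorem exists_good0 : letI := algL (A := A) F X
    ∃ B : BridgeData C.S.hπ.prime F k (LaurentSeries k),
      Good M r Φ w (castS k (Xh M p)) B ∧ B.Φ = V k p := by
  haveI : Fact p.Prime := ⟨C.hp⟩
  haveI hchar : CharP k p := by
    have : (p : k) = 0 := by rw [← map_natCast r, C.S.hrℓ]
    exact (CharP.charP_iff_prime_eq_zero C.hp).mpr this
  exact exists_good C.S X (castS k (Xh M p)) C.redX C.wX (V_castS k p _) C.ql C.lift0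
    (xk_transcendental C)

/-- chart `1/X`. -/
theorem exists_goodinf : letI := algL (A := A) F X⁻¹
    ∃ B : BridgeData C.S.hπ.prime F k (LaurentSeries k),
      Good M r Φ w (castS k (Xh M p))⁻¹ B ∧ B.Φ = V k p := by
  haveI : Fact p.Prime := ⟨C.hp⟩
  haveI hchar : CharP k p := by
    have : (p : k) = 0 := by rw [← map_natCast r, C.S.hrℓ]
    exact (CharP.charP_iff_prime_eq_zero C.hp).mpr this
  have hXF0 : algebraMap E F X ≠ 0 := by
    rw [Ne, map_eq_zero]; exact C.X_ne_zero
  have QXi : QL M r π Φ w (algebraMap E F X⁻¹) := by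
    rw [map_inv₀]; exact C.ql.inv C.S.hπ hXF0
  exact exists_good C.S X⁻¹ (castS k (Xh M p))⁻¹
    (by rw [map_inv₀, map_inv₀]; exact C.redX.inv (xk_ne_zero C))
    (by rw [map_inv₀, map_inv₀, C.wX])
    (by rw [map_inv₀, V_castS k p, inv_pow]) QXi C.liftinf (xk_inv_transcendental C)

theorem pi_dvd_p (x : E) : letI := algL (A := A) F x
    pi π F ∣ (p : SM A F) := pi_dvd_natCast x C.pi_dvd_p

/-- `X = J Y`. -/
theorem algebraMap_X_eq {Jf Yf : F} (hJ : Φ Jf = castS K (Jh M))
    (hY : Φ Yf = castS K (Jh (M * p))) : algebraMap E F X = Jf * Yf := by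
  apply Φ.injective
  rw [C.hX, map_mul, hJ, hY]
  exact map_mul (coeffMap (Int.castRingHom K)) _ _

/-- **the modular unit** in the chart `X`. -/
theorem exists_XData : letI := algL (A := A) F X
    ∀ {B : BridgeData C.S.hπ.prime F k (LaurentSeries k)}, Good M r Φ w (castS k (Xh M p)) B →
    ∃ X₀ U ε : SM A F, XData F (pi π F) (Q₁ B) (Q₂ B) X₀ (12 * (p - 1)) ∧
      X₀ * U = pi π F ^ (12 * (p - 1)) * ε ∧ IsUnit ε ∧
      Φ (X₀ : F) = XD.XD K p ∧ r₁ B X₀ = XD.XD k p := by
  letI := algL (A := A) F X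
  intro B G
  haveI : Fact p.Prime := ⟨C.hp⟩
  obtain ⟨Jf, Yf, hJ, hY⟩ := C.S.exists_J
  have hXe := algebraMap_X_eq C hJ hY
  have hζK : IsPrimitiveRoot (algebraMap A K ζ) p :=
    C.hζ.map_of_injective (IsFractionRing.injective A K)
  obtain ⟨Xf, Uf, hX, hU, hXU, hw, hw', hiX, hiU, hr1, hr2, -, -⟩ :=
    XD.Setup.exists_XD C.S hζK hJ hY
  rw [← hXe] at hiX hiU
  have hiX' : IsIntegral A[X] Xf := (intX_algebraMap_iff X Xf).1 hiX
  have hiU' : IsIntegral A[X] Uf := (intX_algebraMap_iff X Uf).1 hiU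
  obtain ⟨s, hs⟩ := PL.wilson_cyclo C.hp C.hp2 C.hζ
  rw [← C.hπ] at hs
  obtain ⟨c', hc'⟩ := C.unit_of_dvd (c := 1 - π * s) ⟨-s, by ring⟩
  let X₀ : SM A F := ⟨Xf, hiX'⟩
  let U : SM A F := ⟨Uf, hiU'⟩
  let ε : SM A F := algebraMap A[X] (SM A F) (Polynomial.C ((-1 + π * s) ^ 12))
  let ε' : SM A F := algebraMap A[X] (SM A F) (Polynomial.C (c' ^ 12))
  have hεε' : ε * ε' = 1 := by
    change algebraMap A[X] (SM A F) _ * algebraMap A[X] (SM A F) _ = 1
    rw [← map_mul, ← C_mul, ← mul_pow]
    have : (-1 + π * s) * c' = -1 := by linear_combination -hc'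
    rw [this]
    norm_num
  have hε : IsUnit ε := IsUnit.of_mul_eq_one _ hεε'
  have hmul : X₀ * U = pi π F ^ (12 * (p - 1)) * ε := by
    apply Subtype.ext
    change Xf * Uf = ((pi π F ^ (12 * (p - 1)) * ε : SM A F) : F)
    rw [hXU, pi, ← map_pow, ← map_mul, ← C_pow, ← C_mul, coe_algebraMap_C, hs]
    congr 1
    ring
  have h1 : r₁ B X₀ = XD.XD k p := (G.redK_r₁ X₀).unique hr1
  have h2 : r₂ B U = XD.XD k p := (G.redK_r₂ U).unique hr2
  have hT : 0 < 12 * (p - 1) := by
    have := C.hp.two_le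
    omega
  have hX₀ : (X₀ : F) ≠ 0 := by
    intro h0
    have : Φ Xf = 0 := by
      change Xf = 0 at h0
      rw [h0, map_zero]
    rw [hX] at this
    exact XD.XD_ne_zero p this
  refine ⟨X₀, U, ε, ⟨hT, ?_, ?_, ?_⟩, hmul, hε, hX, h1⟩
  · rw [mem_Q₁, h1]
    exact XD.XD_ne_zero p
  · refine ⟨U, ε, ?_, ?_, ?_⟩
    · rw [mem_Q₂, h2]
      exact XD.XD_ne_zero p
    · intro hm
      exact (inferInstance : (Q₂ B).IsPrime).ne_top (Ideal.eq_top_of_isUnit_mem _ hm hε)
    · rw [zpow_natCast, ← map_pow, ← map_mul, ← map_mul, mul_comm, hmul]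
  · refine ⟨12 * (p - 1), U * ε', ?_⟩
    have e1 := congrArg (algebraMap (SM A F) F) hmul
    have e2 := congrArg (algebraMap (SM A F) F) hεε'
    rw [map_mul, map_mul, map_pow] at e1
    rw [map_mul, map_one] at e2
    have hX₀' : algebraMap (SM A F) F X₀ ≠ 0 := hX₀
    rw [map_mul]
    calc algebraMap (SM A F) F (pi π F) ^ (12 * (p - 1)) * (algebraMap (SM A F) F X₀)⁻¹
        = (algebraMap (SM A F) F (pi π F) ^ (12 * (p - 1)) * algebraMap (SM A F) F ε)
            * algebraMap (SM A F) F ε' * (algebraMap (SM A F) F X₀)⁻¹ := by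
          rw [mul_assoc (_ ^ _), e2, mul_one]
      _ = algebraMap (SM A F) F U * algebraMap (SM A F) F ε' := by
          rw [← e1]; field_simp

theorem coprime_T (hp5 : 5 ≤ p) : Nat.Coprime p (12 * (p - 1)) := by
  have hp := C.hp
  rw [Nat.Prime.coprime_iff_not_dvd hp]
  intro h
  rcases (Nat.Prime.dvd_mul hp).1 h with h | h
  · have := Nat.le_of_dvd (by norm_num) h
    interval_cases p <;> first | (revert h; decide) | (revert hp; decide)
  · have := Nat.le_of_dvd (by omega) h
    omega

/-- **chart `1/X`**: the hypothesis `hsm` of `Const.cuv`. -/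
theorem smoothAt_inf : letI := algL (A := A) F X⁻¹
    ∀ {B : BridgeData C.S.hπ.prime F k (LaurentSeries k)}
      (G : Good M r Φ w (castS k (Xh M p))⁻¹ B)
      (W : ValuationSubring (modularFunctionFieldFullC k M))
      (_ : G.rL (algebraMap A[X] (SM A F) Polynomial.X) ∈ W.nonunits) (n : Ideal (SM A F)),
      n.IsMaximal → (∀ s, G.rL s ∈ W.nonunits → s ∈ n) → SmoothAt n (pi π F) (Q₁ B) := by
  letI := algE (A := A) X⁻¹
  letI := algL (A := A) F X⁻¹
  haveI := isFractionRing_algE (transcendental_inv C.hXt) (hgen_inv C.hXt C.hgen)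
  haveI : IsScalarTower A[X] E F := isScalarTower_alg X⁻¹
  intro B G W hx n hn hcen
  obtain ⟨Jf, Yf, hJ, hY⟩ := C.S.exists_J
  have hXe := algebraMap_X_eq C hJ hY
  refine G.smoothAt_of_cusp E C.S hJ hY (fun P => ?_) hn (hcen _ hx) fun s hs => hcen s ?_
  · change algebraMap E F (aeval X⁻¹ P) = _
    rw [← aeval_algebraMap_apply, map_inv₀, hXe]
  · rw [G.rL_eq_zero_iff.2 hs, ValuationSubring.mem_nonunits_iff, map_zero]
    exact zero_lt_one

end

end Fermat.Agent.S44.Bridge
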