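import Fermat.Agent.S28.IntTower

/-!
# S44 / Bridge / CuspInt : `j(q^p) / j(q)^p` is integral over `ℤ[1/j]`.

The coefficient `c_i ∈ ℤ[ζ][j]` of `X^i` in the modular polynomial `Φ_p(j, X)` has degree `≤ p (p + 1 - i)` (look at the orders of the roots
`j(q^{p²})`, `j(ζ^b q)` of `Φ_p(j(q^p), X)`).  Hence `scaleRoots Φ_p(j, X) j^{-p}` has coefficients in `ℤ[ζ][1/j]`.
-/

set_option autoImplicit false
set_option linter.unusedSectionVars false
set_option linter.style.haveILetI false

open ModularCurve Polynomial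

namespace Fermat.Agent.S44.Bridge

open Fermat.Agent.S28 Fermat.Agent.S28.Build Fermat.Agent.S28.Transfer

noncomputable section

section Bd

variable {A : Type*} [CommRing A]

/-- `P` has degree `≤ n` and its coefficient of `X^i` has order `≥ -c (n - i)`. -/
def Bd (c : ℤ) (n : ℕ) (P : (LaurentSeries A)[X]) : Prop :=
  (∀ i, n < i → P.coeff i = 0) ∧ ∀ i ≤ n, P.coeff i ∈ F (A := A) (-c * ((n : ℤ) - i))

theorem Bd.one (c : ℤ) : Bd c 0 (1 : (LaurentSeries A)[X]) := by
  constructor
  · intro i hi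
    rw [coeff_one, if_neg (by omega)]
  · intro i hi
    obtain rfl : i = 0 := by omega
    rw [coeff_one_zero]
    simpa using one_mem_F (A := A)

theorem Bd.mul_linear {c : ℤ} {n : ℕ} {P : (LaurentSeries A)[X]} (h : Bd c n P)
    {r : LaurentSeries A} (hr : r ∈ F (A := A) (-c)) : Bd c (n + 1) ((X - C r) * P) := by
  constructor
  · intro i hi
    obtain ⟨i, rfl⟩ : ∃ j, i = j + 1 := ⟨i - 1, by omega⟩
    rw [sub_mul, coeff_sub, coeff_X_mul, Polynomial.coeff_C_mul, h.1 i (by omega), h.1 (i + 1) (by omega),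
      mul_zero, sub_zero]
  · intro i hi
    rw [sub_mul, coeff_sub, Polynomial.coeff_C_mul]
    refine sub_mem ?_ ?_
    · rcases i with _ | i
      · rw [coeff_X_mul_zero]; exact zero_mem _
      · rw [coeff_X_mul]
        have := h.2 i (by omega)
        convert this using 2
        push_cast; ring
    · by_cases hin : i ≤ n
      · have := mul_mem_F hr (h.2 i hin)
        convert this using 2
        push_cast; ring
      · rw [h.1 i (by omega), mul_zero]; exact zero_mem _

theorem Bd.prod {ι : Type*} (s : Finset ι) (c : ℤ) (r : ι → LaurentSeries A)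
    (hr : ∀ i ∈ s, r i ∈ F (A := A) (-c)) : Bd c s.card (∏ i ∈ s, (X - C (r i))) := by
  classical
  induction s using Finset.induction_on with
  | empty => simpa using Bd.one (A := A) c
  | insert a s ha ih =>
    rw [Finset.prod_insert ha, Finset.card_insert_of_notMem ha]
    exact (ih fun i hi => hr i (Finset.mem_insert_of_mem hi)).mul_linear
      (hr a (Finset.mem_insert_self _ _))

theorem J_mem_F : J A ∈ F (A := A) (-1) := by
  intro n hn
  have := coeff_jqModC_pow_of_lt A (b := 1) (m := n) (by simpa using hn)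
  rwa [pow_one] at this

end Bd

variable {A : Type*} [CommRing A] [Nontrivial A] {p : ℕ} [NeZero p]

theorem ModEq_bd (D : ModEqData A p) :
    Bd ((p : ℤ) ^ 2) (p + 1) (D.Φ.map (evAt (V A p (J A)))) := by
  rw [D.hΦ]
  have hp : (1 : ℤ) ≤ p := by exact_mod_cast Nat.pos_of_ne_zero (NeZero.ne p)
  have h1 := Bd.prod (A := A) (Finset.range p) ((p : ℤ) ^ 2)
    (fun b => scale (D.ζ ^ b) (J A)) (fun b _ => F_mono (by nlinarith) (scale_mem_F _ J_mem_F))
  rw [Finset.card_range] at h1
  refine h1.mul_linear ?_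
  have := V_mem_F p (V_mem_F p (J_mem_F (A := A)))
  convert this using 2
  ring

theorem ModEq_natDegree_coeff_le (D : ModEqData A p) (i : ℕ) (hi : i ≤ p + 1) :
    (D.Φ.coeff i).natDegree ≤ p * (p + 1 - i) := by
  by_contra hcon
  push Not at hcon
  have h1 := (ModEq_bd D).2 i hi
  rw [coeff_map] at h1
  have h2 := coeff_evAt_V_J p (D.Φ.coeff i) _ le_rfl
  have hp : (0 : ℤ) < p := by exact_mod_cast Nat.pos_of_ne_zero (NeZero.ne p)
  have h3 : (p : ℤ) * -((D.Φ.coeff i).natDegree : ℤ) < -(p : ℤ) ^ 2 * (((p + 1 : ℕ) : ℤ) - i) := by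
    have h4 : ((p * (p + 1 - i) : ℕ) : ℤ) < ((D.Φ.coeff i).natDegree : ℤ) := by exact_mod_cast hcon
    rw [Nat.cast_mul, Nat.cast_sub hi] at h4
    nlinarith
  rw [h1 _ h3] at h2
  have h5 : D.Φ.coeff i = 0 := leadingCoeff_eq_zero.mp h2.symm
  rw [h5, natDegree_zero] at hcon
  omega

theorem ModEq_natDegree (D : ModEqData A p) : D.Φ.natDegree = p + 1 := by
  have h1 : (D.Φ.map (evAt (V A p (J A)))).natDegree = D.Φ.natDegree :=
    D.hΦmonic.natDegree_map _
  rw [← h1, D.hΦ, Monic.natDegree_mul (monic_X_sub_C _)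
    (monic_prod_of_monic _ _ fun b _ => monic_X_sub_C _), natDegree_X_sub_C,
    natDegree_prod_of_monic _ _ fun b _ => monic_X_sub_C _]
  simp [add_comm]

theorem ModEq_root (D : ModEqData A p) : (D.Φ.map (evAt (J A))).eval (V A p (J A)) = 0 := by
  apply qExpand_injective (R := A) (N := p)
  have h1 : (D.Φ.map (evAt (V A p (J A)))).eval (V A p (V A p (J A))) = 0 := by
    rw [D.hΦ, eval_mul]
    simp
  rw [map_zero, ← h1, ← V_comp_evAt, ← Polynomial.map_map, eval_map, eval_map, hom_eval₂,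
    eval₂_map]

/-- `evAt J c * Ji ^ n = evAt Ji (reflect n c)`. -/
theorem evAt_mul_pow_eq {x xi : LaurentSeries A} (hx : x * xi = 1) (c : A[X]) (n : ℕ)
    (hn : c.natDegree ≤ n) : evAt x c * xi ^ n = evAt xi (reflect n c) := by
  letI : Invertible x := ⟨xi, by rw [mul_comm]; exact hx, hx⟩
  have h := eval₂_reflect_mul_pow (HahnSeries.C : A →+* LaurentSeries A) x n c hn
  rw [evAt_apply, evAt_apply, ← h]
  change _ = eval₂ HahnSeries.C (⅟x) (reflect n c)
  rw [mul_assoc, ← mul_pow, hx, one_pow, mul_one]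

/-- integrality over `A[ζ][1/j]`. -/
theorem ModEq_exists_monic (D : ModEqData A p) {Ji : LaurentSeries A} (hJ : J A * Ji = 1) :
    ∃ Ψ : A[X][X], Ψ.Monic ∧ (Ψ.map (evAt Ji)).eval (V A p (J A) * Ji ^ p) = 0 := by
  set G := D.Φ.map (evAt (J A)) with hG
  have hGm : G.Monic := D.hΦmonic.map _
  have hGd : G.natDegree = p + 1 := by rw [hG, D.hΦmonic.natDegree_map, ModEq_natDegree]
  have hlift : scaleRoots G (Ji ^ p) ∈ lifts (evAt Ji) := by
    rw [lifts_iff_coeff_lifts]
    intro i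
    rw [coeff_scaleRoots, hGd, hG, coeff_map]
    by_cases hi : i ≤ p + 1
    · refine ⟨reflect (p * (p + 1 - i)) (D.Φ.coeff i), ?_⟩
      rw [← evAt_mul_pow_eq hJ _ _ (ModEq_natDegree_coeff_le D i hi), pow_mul]
    · refine ⟨0, ?_⟩
      rw [coeff_eq_zero_of_natDegree_lt (by rw [ModEq_natDegree]; omega), map_zero, map_zero,
        zero_mul]
  obtain ⟨Ψ, hΨ, -, hΨm⟩ := lifts_and_natDegree_eq_and_monic hlift
    ((monic_scaleRoots_iff _).2 hGm)
  refine ⟨Ψ, hΨm, ?_⟩
  rw [hΨ]
  have h := scaleRoots_eval₂_eq_zero (RingHom.id (LaurentSeries A)) (p := G) (s := Ji ^ p)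
    (r := V A p (J A)) (by rw [eval₂_id]; exact ModEq_root D)
  rw [eval₂_id, RingHom.id_apply, mul_comm] at h
  exact h

end

end Fermat.Agent.S44.Bridge
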