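import Fermat.Agent.S44.Bridge.Inst
import Fermat.Agent.S44.Bridge.CuspInt

/-!
# S44 / Bridge / Cusp : the cusps are smooth points of the special fibre.

Chart `x = X⁻¹ = (J Y)⁻¹`.  `t := Y / J^ℓ` and `w t = J / Y^ℓ` are integral over `A[x]`, `t ≡ 1` on the first component, `w t ≡ 1` on the second one,
and `t * w t = x^(ℓ-1)`.  So a prime `n ∋ x` cannot contain both `Q₁` and `Q₂`.
-/

set_option autoImplicit false
set_option linter.unusedSectionVars false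
set_option linter.style.haveILetI false

open Polynomial ModularCurve

namespace Fermat.Agent.S44.Bridge

open Fermat.Agent.Crux.G Fermat.Agent.SS.G2 Fermat.Agent.S44.Loc Fermat.Agent.SS.GM2
open Fermat.Agent.S28 (V J evAt)
open Fermat.Agent.Crux.GM (castS)

/-- the inverse of `j` in `ℤ((q))`. -/
theorem exists_Jinv : ∃ Ji : LaurentSeries ℤ, J ℤ * Ji = 1 := by
  have h1 : (J ℤ).leadingCoeff = 1 := by
    have h := Fermat.Agent.SS.GM2.leadingCoeff_Jh 1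
    have e : Jh 1 = J ℤ := qExpand_one_apply _
    rwa [e] at h
  have h2 : IsUnit (J ℤ) := HahnSeries.isUnit_iff.2 (by rw [h1]; exact isUnit_one)
  obtain ⟨u, hu⟩ := h2
  exact ⟨↑u⁻¹, by rw [← hu]; exact u.mul_inv⟩

/-- `j(q^p) / j^p` is integral over `ℤ[1/j]`. -/
theorem isIntegralElem_Z (p : ℕ) [Fact p.Prime] [NeZero p] {Ji : LaurentSeries ℤ}
    (hJ : J ℤ * Ji = 1) : (evAt Ji).IsIntegralElem (V ℤ p (J ℤ) * Ji ^ p) := by
  obtain ⟨D⟩ := Fermat.Agent.S28.exists_modEqData_adjoin p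
  have hJ' : J (Fermat.Agent.S28.Transfer.Oz p) *
      coeffMap (Int.castRingHom (Fermat.Agent.S28.Transfer.Oz p)) Ji = 1 := by
    rw [← Fermat.Agent.S28.Build.coeffMap_J (Int.castRingHom (Fermat.Agent.S28.Transfer.Oz p)),
      ← map_mul, hJ, map_one]
  obtain ⟨Ψ, hΨ, h⟩ := ModEq_exists_monic D hJ'
  obtain ⟨P, hP, hP0⟩ := Fermat.Agent.S28.Transfer.exists_monic_descent p Ji
    (V ℤ p (J ℤ) * Ji ^ p) Ψ hΨ (by
      rw [map_mul, map_pow, Fermat.Agent.S28.Build.coeffMap_V, Fermat.Agent.S28.Build.coeffMap_J]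
      exact h)
  exact ⟨P, hP, by rwa [eval_map] at hP0⟩

/-- `j(q^{Mp}) / j(q^M)^p` is integral over `A[1/j(q^M)]`, in `K((q))`. -/
theorem isIntegralElem_K (A K : Type) [CommRing A] [IsDomain A] [IsDiscreteValuationRing A] [Field K]
    [Algebra A K] [IsFractionRing A K] (M p : ℕ) [NeZero M]
    [NeZero p] (hp : p.Prime) :
    (evK A (castS K (Jh M))⁻¹).IsIntegralElem (castS K (Jh (M * p)) * ((castS K (Jh M))⁻¹) ^ p) := by
  haveI : Fact p.Prime := ⟨hp⟩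
  obtain ⟨Ji, hJ⟩ := exists_Jinv
  have h1 := Fermat.Agent.S28.IntTower.isIntegralElem_coeffMap (Int.castRingHom A)
    (Fermat.Agent.S28.IntTower.isIntegralElem_V M (isIntegralElem_Z p hJ))
  have h2 := isIntegralElem_evK_of_evAt (K := K) h1
  have e0 : ∀ z : LaurentSeries ℤ,
      coeffMap (algebraMap A K) (coeffMap (Int.castRingHom A) z) = castS K z := fun z =>
    Fermat.Agent.Crux.GM.coeffMap_castS (algebraMap A K) z
  rw [e0, e0] at h2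
  have e1 : castS K (V ℤ M Ji) = (castS K (Jh M))⁻¹ := by
    apply eq_inv_of_mul_eq_one_right
    rw [castS, castS, ← map_mul, Jh, ← map_mul, hJ, map_one, map_one]
  have e2 : castS K (V ℤ M (V ℤ p (J ℤ) * Ji ^ p))
      = castS K (Jh (M * p)) * ((castS K (Jh M))⁻¹) ^ p := by
    rw [map_mul, map_pow, castS, map_mul, map_pow, ← castS, ← castS, e1, qExpand_qExpand]
  rwa [e1, e2] at h2

section Abs

variable {A : Type*} [CommRing A] [IsDomain A] {π : A} {hπ : Prime π}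
variable {F : Type*} [Field F] [Algebra A[X] F]
variable {k Ω : Type*} [Field k] [Field Ω] [Algebra k Ω] (B : BridgeData hπ F k Ω)

/-- abstract form: `t ≡ 1` on the first component, `t₂ ≡ 1` on the second one, `t t₂ ∈ n`. -/
theorem not_node_of {n : Ideal (SM A F)} (hn : n ≠ ⊤) (t t₂ : SM A F) (h1 : r₁ B t = 1)
    (h2 : r₂ B t₂ = 1) (ht : t * t₂ ∈ n) (hQ1 : Q₁ B ≤ n) (hQ2 : Q₂ B ≤ n) : False := by
  have a1 : t - 1 ∈ n := hQ1 (by rw [mem_Q₁, map_sub, h1, map_one, sub_self])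
  have a2 : t₂ - 1 ∈ n := hQ2 (by rw [mem_Q₂, map_sub, h2, map_one, sub_self])
  apply hn
  rw [Ideal.eq_top_iff_one]
  have e : (1 : SM A F) = t * t₂ - (t - 1) * t₂ - (t₂ - 1) := by ring
  rw [e]
  exact sub_mem (sub_mem ht (Ideal.mul_mem_right _ _ a1)) a2

end Abs

section Inst

variable {M ℓ : ℕ} [NeZero M] [NeZero ℓ]
variable {A K k : Type} [CommRing A] [IsDomain A] [IsDiscreteValuationRing A] [Field K]
  [Algebra A K] [IsFractionRing A K] [Field k] [Finite k] {r : A →+* k} {π : A}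
variable {F : Type} [Field F] [Algebra A F] {Φ : F →+* LaurentSeries K} {w : F →+* F}

/-- `Y / J^ℓ` and `J / Y^ℓ` are integral over `A[(J Y)⁻¹]`. -/
theorem intX_cusp (S : Setup M ℓ r π Φ w) {Jf Yf : F} (hJ : Φ Jf = castS K (Jh M))
    (hY : Φ Yf = castS K (Jh (M * ℓ))) :
    IntX A (Jf * Yf)⁻¹ (Yf * Jf⁻¹ ^ ℓ) ∧ IntX A (Jf * Yf)⁻¹ (Jf * Yf⁻¹ ^ ℓ) := by
  obtain ⟨h0J, h0Y⟩ := S.BridgeX_ne_zero hJ hY
  obtain ⟨m1, m2⟩ := S.mutual hJ hY
  have h1 : IntX A Jf⁻¹ (Yf * Jf⁻¹ ^ ℓ) := by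
    rw [S.intX_iff, map_mul, map_pow, map_inv₀, hJ, hY]
    exact isIntegralElem_K A K M ℓ S.hℓ
  have h2 : IntX A (Jf * Yf)⁻¹ (Yf * Jf⁻¹ ^ ℓ) :=
    IntX.trans (unit_trick Jf Yf h0J h0Y m1 m2).2.2.1 h1
  refine ⟨h2, ?_⟩
  have h3 := IntX.map w S.hwA (by rw [map_inv₀, S.w_X hJ hY]) h2
  rwa [map_mul, map_pow, map_inv₀, S.w_J hJ hY, S.w_Y hJ hY] at h3

variable [Algebra A[X] F] {tk : LaurentSeries k} {hπ : Prime π}
  {B : BridgeData hπ F k (LaurentSeries k)}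

/-- **The cusps are smooth points.**  Chart `X ↦ (J Y)⁻¹`. -/
theorem Good.not_node_of_cusp (G : Good M r Φ w tk B) (S : Setup M ℓ r π Φ w) {Jf Yf : F}
    (hJ : Φ Jf = castS K (Jh M)) (hY : Φ Yf = castS K (Jh (M * ℓ)))
    (halg : ∀ P : A[X], algebraMap A[X] F P = aeval (Jf * Yf)⁻¹ P)
    {n : Ideal (SM A F)} (hn : n ≠ ⊤) (hx : algebraMap A[X] (SM A F) X ∈ n) (hQ1 : Q₁ B ≤ n) :
    ¬ Q₂ B ≤ n := by
  intro hQ2
  haveI : Fact ℓ.Prime := ⟨S.hℓ⟩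
  haveI := S.BridgeX_charP
  obtain ⟨h0J, h0Y⟩ := S.BridgeX_ne_zero hJ hY
  obtain ⟨i1, i2⟩ := intX_cusp S hJ hY
  have hint : ∀ y : F, IntX A (Jf * Yf)⁻¹ y → IsIntegral A[X] y := by
    intro y hy
    rw [intX_self_iff] at hy
    have e : algebraMap A[X] F = ((aeval (Jf * Yf)⁻¹ : A[X] →ₐ[A] F) : A[X] →+* F) :=
      RingHom.ext halg
    change (algebraMap A[X] F).IsIntegralElem y
    rw [e]
    exact hy
  have hk0 : castS k (Jh M) ≠ 0 := BridgeX_castS_Jh_ne_zero k M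
  have hred : RedK r (Φ (Yf * Jf⁻¹ ^ ℓ)) 1 := by
    rw [map_mul, map_pow, map_inv₀, hJ, hY]
    have h := (RedK.of_castS (K := K) (r := r) (Jh (M * ℓ))).mul
      (((RedK.of_castS (K := K) (r := r) (Jh M)).inv hk0).pow ℓ)
    refine h.congr rfl ?_
    rw [castS_Jh_mul k ℓ M, inv_pow, mul_inv_cancel₀ (pow_ne_zero _ hk0)]
  refine not_node_of B hn ⟨_, hint _ i1⟩ ⟨_, hint _ i2⟩ ?_ ?_ ?_ hQ1 hQ2
  · exact (G.redK_r₁ ⟨_, hint _ i1⟩).unique hred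
  · refine (G.redK_r₂ ⟨_, hint _ i2⟩).unique ?_
    change RedK r (Φ (w (Jf * Yf⁻¹ ^ ℓ))) 1
    rwa [map_mul, map_pow, map_inv₀, S.w_J hJ hY, S.w_Y hJ hY]
  · have e : (⟨_, hint _ i1⟩ * ⟨_, hint _ i2⟩ : SM A F)
        = algebraMap A[X] (SM A F) X ^ (ℓ - 1) := by
      apply Subtype.ext
      change Yf * Jf⁻¹ ^ ℓ * (Jf * Yf⁻¹ ^ ℓ) = (algebraMap A[X] F X) ^ (ℓ - 1)
      rw [halg, aeval_X]
      obtain ⟨m, hm⟩ : ∃ m, ℓ = m + 1 := ⟨ℓ - 1, by have := S.hℓ.pos; omega⟩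
      rw [hm, Nat.add_sub_cancel, pow_succ, pow_succ, mul_inv, mul_pow]
      have a1 : Jf⁻¹ * Jf = 1 := inv_mul_cancel₀ h0J
      have a2 : Yf⁻¹ * Yf = 1 := inv_mul_cancel₀ h0Y
      linear_combination (Jf⁻¹ ^ m * Yf⁻¹ ^ m * (Yf⁻¹ * Yf)) * a1 + (Jf⁻¹ ^ m * Yf⁻¹ ^ m) * a2
    rw [e]
    exact Ideal.pow_mem_of_mem _ hx _ (by have := S.hℓ.two_le; omega)

end Inst

end Fermat.Agent.S44.Bridge
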