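import Fermat.Agent.S44.Bridge.Abs

/-!
# S44 / Bridge / Dict : dictionary between the `Loc` predicates for the chart ring `SM A F` and the `Crux/G`, `SS/G2` predicates.

* `inR_iff`   : `Loc.InR (pi π F) z ↔ IsBK π z`;
* `invK_iff`  : `Loc.InvK (pi π F) m W ↔ G2.InvK π m W`;
* `vEq₁_of_OF`, `vGe₁_of_OF` (and `₂`) : `h z = π^k g`, `g h ∈ O_F`, `ρ₁ h ≠ 0` (`ρ₁ g ≠ 0`)  ⟹  `VGe` (`VEq`) `(Q₁ B) (pi π F) k z`;
* `isIntegrallyClosed_of` : a criterion for `IsIntegrallyClosed R`, `R` a subalgebra of a field.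
-/

set_option autoImplicit false
set_option linter.unusedSectionVars false
set_option linter.style.haveILetI false

open Polynomial

namespace Fermat.Agent.S44.Bridge

open Fermat.Agent.Crux.G Fermat.Agent.SS.G2 Fermat.Agent.S44.Loc

variable {A : Type*} [CommRing A] [IsDomain A] {π : A} {hπ : Prime π}
variable {F : Type*} [Field F] [Algebra A[X] F]
variable {k Ω : Type*} [Field k] [Field Ω] [Algebra k Ω]

theorem algebraMap_SM (x : SM A F) : algebraMap (SM A F) F x = x := rfl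

theorem pi_pow_mul (j : ℕ) (z : F) :
    algebraMap (SM A F) F (pi π F) ^ j * z = (C π : A[X]) ^ j • z := by
  rw [algebraMap_SM, coe_pi, Algebra.smul_def, map_pow]

theorem inR_iff {z : F} : InR (pi π F) z ↔ IsBK π z := by
  constructor
  · rintro ⟨j, o, h⟩
    refine ⟨j, ?_⟩
    rw [← pi_pow_mul, h]
    exact o.2
  · rintro ⟨j, h⟩
    exact ⟨j, ⟨_, h⟩, pi_pow_mul j z⟩

theorem invK_iff {m : ℕ} {W : F} :
    Fermat.Agent.S44.Loc.InvK (pi π F) m W ↔ Fermat.Agent.SS.G2.InvK π m W := by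
  constructor
  · rintro ⟨r, a, b, ha, hb, hab⟩
    exact ⟨r, a, b, fun i => inR_iff.1 (ha i), fun i => inR_iff.1 (hb i), hab⟩
  · rintro ⟨r, a, b, ha, hb, hab⟩
    exact ⟨r, a, b, fun i => inR_iff.2 (ha i), fun i => inR_iff.2 (hb i), hab⟩

section V

variable (B : BridgeData hπ F k Ω)
  (ht₁ : Transcendental k (B.ρ₁ (algebraMap A[X] (OF hπ F) X)))
  (ht₂ : Transcendental k (B.ρ₂ (algebraMap A[X] (OF hπ F) X)))

include ht₁ in
theorem vGe₁_of_OF {z : F} {j : ℤ} (g h : OF hπ F) (hh : B.ρ₁ h ≠ 0)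
    (e : (h : F) * z = ((pi π F : SM A F) : F) ^ j * g) : VGe (Q₁ B) (pi π F) j z := by
  obtain ⟨s, x, hs, hx⟩ := exists_smul_eq g
  obtain ⟨t, y, ht, hy⟩ := exists_smul_eq h
  have hx' : (x : F) = (algebraMap A[X] (SM A F) s : SM A F) * (g : F) := congrArg Subtype.val hx
  have hy' : (y : F) = (algebraMap A[X] (SM A F) t : SM A F) * (h : F) := congrArg Subtype.val hy
  refine ⟨algebraMap A[X] (SM A F) s * y, algebraMap A[X] (SM A F) t * x, ?_, ?_⟩
  · rw [mem_Q₁, map_mul]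
    refine mul_ne_zero (r₁_algebraMap_ne_zero B ht₁ hs) ?_
    rw [r₁, RingHom.comp_apply, hy, map_mul]
    exact mul_ne_zero (r₁_algebraMap_ne_zero B ht₁ ht) hh
  · rw [algebraMap_SM, algebraMap_SM, algebraMap_SM, MulMemClass.coe_mul, MulMemClass.coe_mul,
      hx', hy']
    linear_combination ((algebraMap A[X] (SM A F) s : SM A F) : F) *
      ((algebraMap A[X] (SM A F) t : SM A F) : F) * e

include ht₁ in
theorem vEq₁_of_OF {z : F} {j : ℤ} (g h : OF hπ F) (hg : B.ρ₁ g ≠ 0) (hh : B.ρ₁ h ≠ 0)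
    (e : (h : F) * z = ((pi π F : SM A F) : F) ^ j * g) : VEq (Q₁ B) (pi π F) j z := by
  obtain ⟨s, x, hs, hx⟩ := exists_smul_eq g
  obtain ⟨t, y, ht, hy⟩ := exists_smul_eq h
  have hx' : (x : F) = (algebraMap A[X] (SM A F) s : SM A F) * (g : F) := congrArg Subtype.val hx
  have hy' : (y : F) = (algebraMap A[X] (SM A F) t : SM A F) * (h : F) := congrArg Subtype.val hy
  refine ⟨algebraMap A[X] (SM A F) s * y, algebraMap A[X] (SM A F) t * x, ?_, ?_, ?_⟩
  · rw [mem_Q₁, map_mul]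
    refine mul_ne_zero (r₁_algebraMap_ne_zero B ht₁ hs) ?_
    rw [r₁, RingHom.comp_apply, hy, map_mul]
    exact mul_ne_zero (r₁_algebraMap_ne_zero B ht₁ ht) hh
  · rw [mem_Q₁, map_mul]
    refine mul_ne_zero (r₁_algebraMap_ne_zero B ht₁ ht) ?_
    rw [r₁, RingHom.comp_apply, hx, map_mul]
    exact mul_ne_zero (r₁_algebraMap_ne_zero B ht₁ hs) hg
  · rw [algebraMap_SM, algebraMap_SM, algebraMap_SM, MulMemClass.coe_mul, MulMemClass.coe_mul,
      hx', hy']
    linear_combination ((algebraMap A[X] (SM A F) s : SM A F) : F) *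
      ((algebraMap A[X] (SM A F) t : SM A F) : F) * e

include ht₂ in
theorem vGe₂_of_OF {z : F} {j : ℤ} (g h : OF hπ F) (hh : B.ρ₂ h ≠ 0)
    (e : (h : F) * z = ((pi π F : SM A F) : F) ^ j * g) : VGe (Q₂ B) (pi π F) j z := by
  obtain ⟨s, x, hs, hx⟩ := exists_smul_eq g
  obtain ⟨t, y, ht, hy⟩ := exists_smul_eq h
  have hx' : (x : F) = (algebraMap A[X] (SM A F) s : SM A F) * (g : F) := congrArg Subtype.val hx
  have hy' : (y : F) = (algebraMap A[X] (SM A F) t : SM A F) * (h : F) := congrArg Subtype.val hy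
  refine ⟨algebraMap A[X] (SM A F) s * y, algebraMap A[X] (SM A F) t * x, ?_, ?_⟩
  · rw [mem_Q₂, map_mul]
    refine mul_ne_zero (r₂_algebraMap_ne_zero B ht₂ hs) ?_
    rw [r₂, RingHom.comp_apply, hy, map_mul]
    exact mul_ne_zero (r₂_algebraMap_ne_zero B ht₂ ht) hh
  · rw [algebraMap_SM, algebraMap_SM, algebraMap_SM, MulMemClass.coe_mul, MulMemClass.coe_mul,
      hx', hy']
    linear_combination ((algebraMap A[X] (SM A F) s : SM A F) : F) *
      ((algebraMap A[X] (SM A F) t : SM A F) : F) * e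

include ht₂ in
theorem vEq₂_of_OF {z : F} {j : ℤ} (g h : OF hπ F) (hg : B.ρ₂ g ≠ 0) (hh : B.ρ₂ h ≠ 0)
    (e : (h : F) * z = ((pi π F : SM A F) : F) ^ j * g) : VEq (Q₂ B) (pi π F) j z := by
  obtain ⟨s, x, hs, hx⟩ := exists_smul_eq g
  obtain ⟨t, y, ht, hy⟩ := exists_smul_eq h
  have hx' : (x : F) = (algebraMap A[X] (SM A F) s : SM A F) * (g : F) := congrArg Subtype.val hx
  have hy' : (y : F) = (algebraMap A[X] (SM A F) t : SM A F) * (h : F) := congrArg Subtype.val hy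
  refine ⟨algebraMap A[X] (SM A F) s * y, algebraMap A[X] (SM A F) t * x, ?_, ?_, ?_⟩
  · rw [mem_Q₂, map_mul]
    refine mul_ne_zero (r₂_algebraMap_ne_zero B ht₂ hs) ?_
    rw [r₂, RingHom.comp_apply, hy, map_mul]
    exact mul_ne_zero (r₂_algebraMap_ne_zero B ht₂ ht) hh
  · rw [mem_Q₂, map_mul]
    refine mul_ne_zero (r₂_algebraMap_ne_zero B ht₂ ht) ?_
    rw [r₂, RingHom.comp_apply, hx, map_mul]
    exact mul_ne_zero (r₂_algebraMap_ne_zero B ht₂ hs) hg
  · rw [algebraMap_SM, algebraMap_SM, algebraMap_SM, MulMemClass.coe_mul, MulMemClass.coe_mul,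
      hx', hy']
    linear_combination ((algebraMap A[X] (SM A F) s : SM A F) : F) *
      ((algebraMap A[X] (SM A F) t : SM A F) : F) * e

end V

/-- a subalgebra `R` of a field `Ω` is integrally closed as soon as every quotient `a / b ∈ Ω`
(`a b ∈ R`) which is integral over `R` lies in `R`. -/
theorem isIntegrallyClosed_of (R : Subalgebra k Ω)
    (h : ∀ a b z : Ω, a ∈ R → b ∈ R → b ≠ 0 → z * b = a → IsIntegral R z → z ∈ R) :
    IsIntegrallyClosed R := by
  rw [isIntegrallyClosed_iff (FractionRing R)]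
  intro x hx
  have hinj : Function.Injective (Algebra.ofId R Ω) := Subtype.val_injective
  let φ : FractionRing R →ₐ[R] Ω := IsFractionRing.liftAlgHom hinj
  obtain ⟨a, b, hb, rfl⟩ := IsFractionRing.div_surjective (A := R) x
  have hb0 : (b : Ω) ≠ 0 := by
    intro h0
    exact nonZeroDivisors.ne_zero hb (Subtype.ext h0)
  have hz : IsIntegral R (φ (algebraMap R (FractionRing R) a / algebraMap R (FractionRing R) b)) :=
    hx.map φ
  have e1 : φ (algebraMap R (FractionRing R) a / algebraMap R (FractionRing R) b)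
      = (a : Ω) / (b : Ω) := by
    rw [map_div₀, AlgHom.commutes, AlgHom.commutes]
    rfl
  rw [e1] at hz
  have hmem := h a b _ a.2 b.2 hb0 (div_mul_cancel₀ _ hb0) hz
  refine ⟨⟨_, hmem⟩, φ.toRingHom.injective ?_⟩
  change φ _ = φ _
  rw [e1, AlgHom.commutes]
  rfl

end Fermat.Agent.S44.Bridge
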