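import Fermat.Agent.S44.Bridge.Dict
import Fermat.Agent.S44.Bridge.RedDict
import Fermat.Agent.SS.GM2.BridgeX

/-!
# S44 / Bridge / Inst : the hypotheses of `Bridge/Abs.lean` for the `BridgeData` delivered by `SS.GM2.Setup.exists_bridgeData`.

* `Good M r Φ w tk B` : the properties of the `BridgeData` `B` of one chart (`tk` = reduction of the coordinate);
* `Setup.exists_good` : existence, from `SS.GM2.Setup` + `QL` + lifts (same hypotheses as `exists_bridgeData`, + `tk` transcendental);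
* `Good.trichotomy`, `Good.locPrin₁/₂`, `Good.redData₁/₂` (so all of `RedDict.lean` applies to `Q₁ B = ker (r₁ B)`, `Q₂ B = ker (r₂ B)`).
-/

set_option autoImplicit false
set_option linter.unusedSectionVars false
set_option linter.style.haveILetI false

open Polynomial ModularCurve

namespace Fermat.Agent.S44.Bridge

open Fermat.Agent.Crux.G Fermat.Agent.SS.G2 Fermat.Agent.S44.Loc Fermat.Agent.SS.GM2
open Fermat.Agent.S28 (V J evAt)
open Fermat.Agent.Crux.GM (castS)

/-- the ring `{a ∈ L : a integral over k[t]}` (`L` a subfield of `Ω`) is integrally closed. -/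
theorem isIntegrallyClosed_of_mem_iff {k Ω : Type*} [Field k] [Field Ω] [Algebra k Ω]
    (R : Subalgebra k Ω) (L : IntermediateField k Ω) (φ : k[X] →+* Ω)
    (h : ∀ a, a ∈ R ↔ a ∈ L ∧ φ.IsIntegralElem a) : IsIntegrallyClosed R := by
  refine isIntegrallyClosed_of R fun a b z ha hb hb0 hz hint => ?_
  rw [h]
  constructor
  · have : z = a / b := by rw [eq_div_iff hb0, hz]
    rw [this]
    exact div_mem ((h a).1 ha).1 ((h b).1 hb).1
  · letI := φ.toAlgebra
    change IsIntegral k[X] z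
    let ι : R →+* integralClosure k[X] Ω :=
      (algebraMap R Ω).codRestrict (integralClosure k[X] Ω).toSubring fun a => ((h a).1 a.2).2
    have h1 : IsIntegral (integralClosure k[X] Ω) z :=
      IsIntegral.map_of_comp_eq ι (RingHom.id Ω) (RingHom.ext fun _ => rfl) hint
    exact isIntegral_trans z h1

variable {M ℓ : ℕ} [NeZero M] [NeZero ℓ]
variable {A K k : Type} [CommRing A] [IsDomain A] [IsDiscreteValuationRing A] [Field K]
  [Algebra A K] [IsFractionRing A K] [Field k] [Finite k] {r : A →+* k} {π : A}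
variable {F : Type} [Field F] {Φ : F →+* LaurentSeries K} {w : F →+* F}

/-- the properties of the `BridgeData` of a chart. -/
structure Good [Algebra A[X] F] (M : ℕ) [NeZero M] (r : A →+* k) (Φ : F →+* LaurentSeries K)
    (w : F →+* F) (tk : LaurentSeries k) {hπ : Prime π}
    (B : BridgeData hπ F k (LaurentSeries k)) : Prop where
  red₁ : ∀ y : OF hπ F, RedK r (Φ (y : F)) (B.ρ₁ y)
  red₂ : ∀ y : OF hπ F, RedK r (Φ (w (y : F))) (B.ρ₂ y)
  mem_R : ∀ a, a ∈ B.R ↔ a ∈ modularFunctionFieldFullC k M ∧ (evAt tk).IsIntegralElem a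
  x₁ : B.ρ₁ (algebraMap A[X] (OF hπ F) X) = tk
  x₂ : B.ρ₂ (algebraMap A[X] (OF hπ F) X) = tk
  tr : Transcendental k tk
  eps : ∃ ε : OF hπ F, B.ρ₁ ε = 1 ∧ B.ρ₂ ε = 0
  piΦ : Φ (algebraMap A[X] F (C π)) = HahnSeries.C (algebraMap A K π)
  piw : w (algebraMap A[X] F (C π)) = algebraMap A[X] F (C π)
  rpi : r π = 0

namespace Good

variable [Algebra A[X] F] {tk : LaurentSeries k} {hπ : Prime π}
  {B : BridgeData hπ F k (LaurentSeries k)} (G : Good M r Φ w tk B)

include G

theorem ic : IsIntegrallyClosed B.R :=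
  isIntegrallyClosed_of_mem_iff B.R (modularFunctionFieldFullC k M) (evAt tk) G.mem_R

theorem t₁ : Transcendental k (B.ρ₁ (algebraMap A[X] (OF hπ F) X)) := by
  rw [G.x₁]; exact G.tr

theorem t₂ : Transcendental k (B.ρ₂ (algebraMap A[X] (OF hπ F) X)) := by
  rw [G.x₂]; exact G.tr

theorem redK_r₁ (x : SM A F) : RedK r (Φ (x : F)) (r₁ B x) := G.red₁ (toOF hπ x)

theorem redK_r₂ (x : SM A F) : RedK r (Φ (w (x : F))) (r₂ B x) := G.red₂ (toOF hπ x)

theorem r₁_mem_full (x : SM A F) : r₁ B x ∈ modularFunctionFieldFullC k M :=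
  ((G.mem_R _).1 (r₁_mem B x)).1

theorem r₂_mem_full (x : SM A F) : r₂ B x ∈ modularFunctionFieldFullC k M :=
  ((G.mem_R _).1 (r₂_mem B x)).1

/-- `RedDict.lean` applies to the first component. -/
theorem redData₁ : RedData r π Φ (r₁ B) (pi π F) where
  red := G.redK_r₁
  pi := G.piΦ
  rpi := G.rpi
  ne := hπ.ne_zero

/-- `RedDict.lean` applies to the second component, with `Φ ∘ w`. -/
theorem redData₂ : RedData r π (Φ.comp w) (r₂ B) (pi π F) where
  red := G.redK_r₂
  pi := by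
    change Φ (w (algebraMap A[X] F (C π))) = _
    rw [G.piw, G.piΦ]
  rpi := G.rpi
  ne := hπ.ne_zero

variable (E : Type*) [Field E] [Algebra A[X] E] [IsFractionRing A[X] E] [CharZero E]
  [Algebra E F] [IsScalarTower A[X] E F] [FiniteDimensional E F]

include E

/-- **Bridge.** -/
theorem trichotomy {n : Ideal (SM A F)} (hn : n.IsMaximal) (hπn : pi π F ∈ n) :
    NodeAt n (pi π F) (Q₁ B) (Q₂ B) ∨ (SmoothAt n (pi π F) (Q₁ B) ∧ ¬ Q₂ B ≤ n) ∨
      (SmoothAt n (pi π F) (Q₂ B) ∧ ¬ Q₁ B ≤ n) := by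
  obtain ⟨ε, h1, h2⟩ := G.eps
  exact Bridge.trichotomy B E G.ic G.t₁ G.t₂ ε h1 h2 hn hπn

theorem locPrin₁ : LocPrin (Q₁ B) (pi π F) := by
  obtain ⟨ε, h1, h2⟩ := G.eps
  exact Bridge.locPrin₁ B E G.t₁ ε h1 h2

theorem locPrin₂ : LocPrin (Q₂ B) (pi π F) := by
  obtain ⟨ε, h1, h2⟩ := G.eps
  exact Bridge.locPrin₂ B E G.t₂ ε h1 h2

end Good

section chart

variable [Algebra A F] {E : Type} [Field E] [Algebra A E] [Algebra E F] [IsScalarTower A E F]

/-- existence of a good `BridgeData` for a `w`-stable chart. -/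
theorem exists_good (S : Setup M ℓ r π Φ w) (x : E) (tk : LaurentSeries k)
    (hxk : RedK r (Φ (algebraMap E F x)) tk) (hwx : w (algebraMap E F x) = algebraMap E F x)
    (hVt : V k ℓ tk = tk ^ ℓ) (Q : QL M r π Φ w (algebraMap E F x))
    (hlift : ∀ a ∈ modularFunctionFieldFullC k M, (evAt tk).IsIntegralElem a →
      ∃ c : F, IntX A x c ∧ RedK r (Φ c) a ∧ RedK r (Φ (w c)) (V k ℓ a))
    (htk : Transcendental k tk) :
    letI := algL (A := A) F x
    ∃ B : BridgeData S.hπ.prime F k (LaurentSeries k), Good M r Φ w tk B ∧ B.Φ = V k ℓ := by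
  letI := algL (A := A) F x
  obtain ⟨B, h₁, h₂, hΦ, hR⟩ := S.exists_bridgeData x tk hxk hwx hVt Q hlift
  obtain ⟨ε, hε₁, hε₂, -⟩ := S.exists_eps
  have hε : IsOL π ε := (isOLx_algebraMap_iff π x ε).1 (Q.isOL ε 1 0 hε₁ hε₂)
  have hX : ((algebraMap A[X] (OF S.hπ.prime F) X : OF S.hπ.prime F) : F) = algebraMap E F x := by
    change algebraMap E F (aeval x (X : A[X])) = _
    rw [aeval_X]
  have hC : algebraMap A[X] F (C π) = algebraMap A F π := by
    change algebraMap E F (aeval x (C π : A[X])) = _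
    rw [aeval_C, ← IsScalarTower.algebraMap_apply]
  refine ⟨B, ⟨h₁, h₂, hR, ?_, ?_, htk, ⟨⟨ε, hε⟩, ?_, ?_⟩, ?_, ?_, ?_⟩, hΦ⟩
  · have := h₁ (algebraMap A[X] (OF S.hπ.prime F) X)
    rw [hX] at this
    exact this.unique hxk
  · have := h₂ (algebraMap A[X] (OF S.hπ.prime F) X)
    rw [hX, hwx] at this
    exact this.unique hxk
  · exact (h₁ ⟨ε, hε⟩).unique hε₁
  · exact (h₂ ⟨ε, hε⟩).unique hε₂
  · rw [hC, S.hΦA]
  · rw [hC, S.hwA]
  · exact Fermat.Agent.Crux.GM.map_irreducible_eq_zero r π S.hr S.hπ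

end chart

end Fermat.Agent.S44.Bridge
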