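import Fermat.Agent.S44.Bridge.Cusp
import Fermat.Agent.S44.Loc.EtaleNormal
import Fermat.Agent.SS.GM2.TowerAux

/-!
# S44 / Bridge / Pkg : the hypotheses of `Const.ncv` / `Const.cuv` which concern the chart ring `S = SM A F`.

`G : Good M r Φ w tk B`, `L := modularFunctionFieldFullC k M`.
* `isIntegrallyClosed_SM E`;
* `G.rL : SM A F →+* L` (`= r₁ B`), `G.rL_eq_zero_iff`, `G.coe_rL`, `G.coe_rL_X`; `G.rL₂` (`= r₂ B`);
* `G.mem_Q₁_iff`, `G.mem_Q₂_iff` : membership in the components in terms of `RedK`;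
* `G.tri E` : `NodeAt n pi Q₁ Q₂ ∨ SmoothAt n pi Q₁` for every maximal `n ⊇ Q₁`;
* `G.rL_mem_val` : `tk ∈ V ⟹ rL s ∈ V` for every valuation ring `V` of `L`;
* `G.smoothAt_of_cusp` (chart `1/X`);
* `exists_isIntegral_of_series`, `invKAt_of_series` : `InvKAt` from integrality of `q`-expansions over `K[t]`.
-/

set_option autoImplicit false
set_option linter.unusedSectionVars false
set_option linter.style.haveILetI false

open Polynomial ModularCurve

namespace Fermat.Agent.S44.Bridge

open Fermat.Agent.Crux.G Fermat.Agent.SS.G2 Fermat.Agent.S44.Loc Fermat.Agent.SS.GM2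
open Fermat.Agent.S28 (V J evAt)
open Fermat.Agent.Crux.GM (castS)

noncomputable section

section SMinst

variable {A : Type*} [CommRing A] [IsDomain A] [IsDiscreteValuationRing A]
variable {F : Type*} [Field F] [Algebra A[X] F]
variable (E : Type*) [Field E] [Algebra A[X] E] [IsFractionRing A[X] E] [CharZero E]
  [Algebra E F] [IsScalarTower A[X] E F] [FiniteDimensional E F]

include E in
theorem isIntegrallyClosed_SM : IsIntegrallyClosed (SM A F) :=
  integralClosure.isIntegrallyClosedOfFiniteExtension E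

end SMinst

variable {M ℓ : ℕ} [NeZero M] [NeZero ℓ]
variable {A K k : Type} [CommRing A] [IsDomain A] [IsDiscreteValuationRing A] [Field K]
  [Algebra A K] [IsFractionRing A K] [Field k] [Finite k] {r : A →+* k} {π : A}
variable {F : Type} [Field F] {Φ : F →+* LaurentSeries K} {w : F →+* F}

namespace Good

variable [Algebra A[X] F] {tk : LaurentSeries k} {hπ : Prime π}
  {B : BridgeData hπ F k (LaurentSeries k)} (G : Good M r Φ w tk B)

include G

/-- the first reduction, with values in `L = F_k(M)`. -/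
def rL : SM A F →+* modularFunctionFieldFullC k M :=
  (r₁ B).codRestrict (modularFunctionFieldFullC k M) G.r₁_mem_full

/-- the second reduction, with values in `L = F_k(M)`. -/
def rL₂ : SM A F →+* modularFunctionFieldFullC k M :=
  (r₂ B).codRestrict (modularFunctionFieldFullC k M) G.r₂_mem_full

@[simp] theorem coe_rL (x : SM A F) : ((G.rL x : modularFunctionFieldFullC k M) : LaurentSeries k)
    = r₁ B x := rfl

@[simp] theorem coe_rL₂ (x : SM A F) : ((G.rL₂ x : modularFunctionFieldFullC k M) : LaurentSeries k)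
    = r₂ B x := rfl

theorem rL_eq_zero_iff {x : SM A F} : G.rL x = 0 ↔ x ∈ Q₁ B := by
  rw [mem_Q₁, ← G.coe_rL]
  exact ⟨fun h => by rw [h]; rfl, fun h => Subtype.ext h⟩

theorem rL₂_eq_zero_iff {x : SM A F} : G.rL₂ x = 0 ↔ x ∈ Q₂ B := by
  rw [mem_Q₂, ← G.coe_rL₂]
  exact ⟨fun h => by rw [h]; rfl, fun h => Subtype.ext h⟩

theorem ker_rL : RingHom.ker G.rL = Q₁ B := by
  ext x; rw [RingHom.mem_ker, G.rL_eq_zero_iff]

theorem ker_rL₂ : RingHom.ker G.rL₂ = Q₂ B := by
  ext x; rw [RingHom.mem_ker, G.rL₂_eq_zero_iff]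

theorem r₁_X : r₁ B (algebraMap A[X] (SM A F) X) = tk := G.x₁

theorem r₂_X : r₂ B (algebraMap A[X] (SM A F) X) = tk := G.x₂

theorem coe_rL_X : ((G.rL (algebraMap A[X] (SM A F) X) : modularFunctionFieldFullC k M) :
    LaurentSeries k) = tk := G.x₁

theorem mem_Q₁_iff {x : SM A F} : x ∈ Q₁ B ↔ RedK r (Φ (x : F)) 0 := by
  rw [mem_Q₁]
  constructor
  · intro h
    have := G.redK_r₁ x
    rwa [h] at this
  · intro h
    exact (G.redK_r₁ x).unique h

theorem mem_Q₂_iff {x : SM A F} : x ∈ Q₂ B ↔ RedK r (Φ (w (x : F))) 0 := by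
  rw [mem_Q₂]
  constructor
  · intro h
    have := G.redK_r₂ x
    rwa [h] at this
  · intro h
    exact (G.redK_r₂ x).unique h

/-- the constants. -/
theorem rL_C (a : A) : G.rL (algebraMap A[X] (SM A F) (C a))
    = algebraMap k (modularFunctionFieldFullC k M) (B.res a) := by
  apply Subtype.ext
  rw [G.coe_rL]
  exact B.ρ₁_C a

/-- `rL` maps the chart ring into every valuation ring of `L` containing the coordinate. -/
theorem rL_mem_val (W : ValuationSubring (modularFunctionFieldFullC k M))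
    (hk : ∀ c : k, algebraMap k (modularFunctionFieldFullC k M) c ∈ W)
    (hx : G.rL (algebraMap A[X] (SM A F) X) ∈ W) (s : SM A F) : G.rL s ∈ W := by
  have h1 : ∀ c : A[X], (G.rL.comp (algebraMap A[X] (SM A F))) c ∈ W := by
    intro c
    induction c using Polynomial.induction_on' with
    | add p q hp hq => rw [map_add]; exact add_mem hp hq
    | monomial n a =>
      rw [← C_mul_X_pow_eq_monomial, map_mul, map_pow, RingHom.comp_apply, RingHom.comp_apply,
        G.rL_C]
      exact mul_mem (hk _) (pow_mem hx n)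
  refine Fermat.Agent.S28.IntVal.mem_of_isIntegralElem W _ h1 ?_
  obtain ⟨P, hP, h0⟩ := Algebra.IsIntegral.isIntegral (R := A[X]) s
  refine ⟨P, hP, ?_⟩
  rw [← hom_eval₂, h0, map_zero]

variable (E : Type*) [Field E] [Algebra A[X] E] [IsFractionRing A[X] E] [CharZero E]
  [Algebra E F] [IsScalarTower A[X] E F] [FiniteDimensional E F]

include E in
/-- the hypothesis `tri` of `Const.ncv`. -/
theorem tri (n : Ideal (SM A F)) (hn : n.IsMaximal) (h1 : Q₁ B ≤ n) :
    NodeAt n (pi π F) (Q₁ B) (Q₂ B) ∨ SmoothAt n (pi π F) (Q₁ B) := by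
  rcases G.trichotomy E hn (h1 (pi_mem_Q₁ B)) with h | h | h
  · exact Or.inl h
  · exact Or.inr h.1
  · exact absurd h1 h.2

include E in
/-- chart `1/X`: the cusps on the first component are smooth points. -/
theorem smoothAt_of_cusp [Algebra A F] (S : Setup M ℓ r π Φ w) {Jf Yf : F}
    (hJ : Φ Jf = castS K (Jh M)) (hY : Φ Yf = castS K (Jh (M * ℓ)))
    (halg : ∀ P : A[X], algebraMap A[X] F P = aeval (Jf * Yf)⁻¹ P)
    {n : Ideal (SM A F)} (hn : n.IsMaximal) (hx : algebraMap A[X] (SM A F) X ∈ n)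
    (h1 : Q₁ B ≤ n) : SmoothAt n (pi π F) (Q₁ B) := by
  rcases G.tri E n hn h1 with h | h
  · exact absurd h.le2 (G.not_node_of_cusp S hJ hY halg hn.ne_top hx h1)
  · exact h

end Good

/-! ### `InvKAt` from integrality of `q`-expansions -/

section Series

variable {S' F' : Type*} [CommRing S'] [Field F'] [Algebra S' F']

/-- clearing denominators. -/
theorem exists_isIntegral_of_series (hπ : Irreducible π) (Ψ' : F' →+* LaurentSeries K)
    (t : LaurentSeries K) (κ : A[X] →+* S')
    (hκ : ∀ P, Ψ' (algebraMap S' F' (κ P)) = evK A t P) (y : F')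
    (h : (evAt t).IsIntegralElem (Ψ' y)) :
    ∃ j : ℕ, IsIntegral S' (algebraMap S' F' (κ (C π)) ^ j * y) := by
  letI : Algebra A[X] F' := ((algebraMap S' F').comp κ).toAlgebra
  have halg : ∀ P : A[X], algebraMap A[X] F' P = algebraMap S' F' (κ P) := fun _ => rfl
  let φA : A →+* F' := (algebraMap A[X] F').comp C
  have hφA : ∀ a, Ψ' (φA a) = HahnSeries.C (algebraMap A K a) := by
    intro a
    change Ψ' (algebraMap S' F' (κ (C a))) = _
    rw [hκ]
    simp [evK]
  have hinj : Function.Injective φA := by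
    rw [injective_iff_map_eq_zero]
    intro a ha
    have h1 := hφA a
    rw [ha, map_zero] at h1
    have h2 : algebraMap A K a = 0 := by
      have h3 := congrArg (fun z : LaurentSeries K => z.coeff 0) h1
      simpa using h3.symm
    exact (map_eq_zero_iff _ (IsFractionRing.injective A K)).mp h2
  letI : Algebra A F' := φA.toAlgebra
  let ψ : K →+* F' := IsFractionRing.lift (A := A) (K := K) (g := φA) hinj
  have hψ : ∀ a : A, ψ (algebraMap A K a) = φA a :=
    fun a => IsFractionRing.lift_algebraMap hinj a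
  have hΨψ : Ψ'.comp ψ = (HahnSeries.C : K →+* LaurentSeries K) := by
    refine IsLocalization.ringHom_ext (nonZeroDivisors A) (RingHom.ext fun a => ?_)
    simp only [RingHom.comp_apply]
    rw [hψ, hφA]
  let θ : K[X] →+* F' := eval₂RingHom ψ (algebraMap A[X] F' X)
  have hθ : ∀ P : A[X], θ (P.map (algebraMap A K)) = algebraMap A[X] F' P := by
    intro P
    have h1 : θ.comp (mapRingHom (algebraMap A K)) = algebraMap A[X] F' := by
      refine Polynomial.ringHom_ext (fun a => ?_) ?_
      · simp only [RingHom.comp_apply, coe_mapRingHom, map_C, θ, coe_eval₂RingHom, eval₂_C]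
        rw [hψ]
        rfl
      · simp only [RingHom.comp_apply, coe_mapRingHom, map_X, θ, coe_eval₂RingHom, eval₂_X]
    exact congrArg (fun g : A[X] →+* F' => g P) h1
  have hΨθ : Ψ'.comp θ = evAt t := by
    refine Polynomial.ringHom_ext (fun c => ?_) ?_
    · simp only [RingHom.comp_apply, θ, coe_eval₂RingHom, eval₂_C, Fermat.Agent.S28.Build.evAt_C]
      exact congrArg (fun g : K →+* LaurentSeries K => g c) hΨψ
    · simp only [RingHom.comp_apply, θ, coe_eval₂RingHom, eval₂_X, Fermat.Agent.S28.Build.evAt_X]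
      rw [halg, hκ]
      simp [evK]
  obtain ⟨j, hj⟩ := TowerC_isBK_generic hπ θ hθ y (by
    obtain ⟨P, hP, hPe⟩ := h
    refine ⟨P, hP, Ψ'.injective ?_⟩
    rw [hom_eval₂, hΨθ, map_zero]
    exact hPe)
  refine ⟨j, ?_⟩
  have h2 : IsIntegral S' ((C π : A[X]) ^ j • y) :=
    IsIntegral.map_of_comp_eq κ (RingHom.id F') (RingHom.ext fun _ => rfl) hj
  rwa [Algebra.smul_def, map_pow, halg] at h2

/-- `InvKAt` from integrality of `q`-expansions over `K[t]`. -/
theorem invKAt_of_series (hπ : Irreducible π) (Ψ' : F' →+* LaurentSeries K)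
    (t : LaurentSeries K) (κ : A[X] →+* S')
    (hκ : ∀ P, Ψ' (algebraMap S' F' (κ P)) = evK A t P) {n' : Ideal S'}
    (hn : NormalAt F' n' (κ (C π))) {m : ℕ} {u : F'} {s : ℕ} (a b : Fin s → F')
    (ha : ∀ l, (evAt t).IsIntegralElem (Ψ' (a l ^ m * u)))
    (hb : ∀ l, (evAt t).IsIntegralElem (Ψ' (b l ^ m * u⁻¹))) (hsum : ∑ l, a l * b l = 1) :
    InvKAt n' (κ (C π)) m u := by
  refine ⟨s, a, b, fun l => ?_, fun l => ?_, hsum⟩
  · obtain ⟨j, hj⟩ := exists_isIntegral_of_series hπ Ψ' t κ hκ _ (ha l)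
    exact InRAt.of_isIntegral hn hj
  · obtain ⟨j, hj⟩ := exists_isIntegral_of_series hπ Ψ' t κ hκ _ (hb l)
    exact InRAt.of_isIntegral hn hj

end Series

end

end Fermat.Agent.S44.Bridge
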